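import Fermat.Agent.FlatJ0.Ramif.Uniformiser
import Mathlib.LinearAlgebra.Lagrange

/-!
# Totally ramified levels over the inertia field

A uniformiser `π` of the field fixed by an open normal subgroup `N` of inertia, its conjugates,
the expansion of fixed elements as polynomials in `π` over the inertia field, and the Eisenstein
polynomial of `π`.
-/

noncomputable section

open Polynomial

namespace Fermat.Agent.FlatJ0

local notation "Ω" => AlgebraicClosure ℚ
local notation "G_ℚ" => (AlgebraicClosure ℚ) ≃ₐ[ℚ] (AlgebraicClosure ℚ)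

variable {A : ValuationSubring Ω} {p : ℕ}

/-- The coefficients of `g` are fixed by inertia. -/
def IsFixedPoly (A : ValuationSubring Ω) (g : Polynomial Ω) : Prop :=
  ∀ σ ∈ A.inertiaSubgroupIn ℚ, ∀ i, σ (g.coeff i) = g.coeff i

/-- Apply an automorphism to the coefficients. -/
def polyApply (σ : G_ℚ) : Polynomial Ω →+* Polynomial Ω := Polynomial.mapRingHom (σ.toAlgHom : Ω →+* Ω)

@[simp] lemma coeff_polyApply (σ : G_ℚ) (g : Polynomial Ω) (i : ℕ) :
    (polyApply σ g).coeff i = σ (g.coeff i) :=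
  coeff_map _ _

lemma eval_polyApply (σ : G_ℚ) (g : Polynomial Ω) (x : Ω) :
    (polyApply σ g).eval (σ x) = σ (g.eval x) := by
  rw [polyApply, coe_mapRingHom, eval_map]
  exact eval₂_at_apply (σ.toAlgHom : Ω →+* Ω) x

@[simp] lemma polyApply_X (σ : G_ℚ) : polyApply σ X = X := map_X _

@[simp] lemma polyApply_C (σ : G_ℚ) (a : Ω) : polyApply σ (C a) = C (σ a) := map_C _

lemma IsFixedPoly.polyApply_eq {g : Polynomial Ω} (hg : IsFixedPoly A g) {σ : G_ℚ}
    (hσ : σ ∈ A.inertiaSubgroupIn ℚ) : polyApply σ g = g :=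
  Polynomial.ext fun i => by rw [coeff_polyApply, hg σ hσ]

lemma isFixedPoly_iff {g : Polynomial Ω} :
    IsFixedPoly A g ↔ ∀ σ ∈ A.inertiaSubgroupIn ℚ, polyApply σ g = g :=
  ⟨fun hg _ hσ => hg.polyApply_eq hσ, fun hg σ hσ i => by
    rw [← coeff_polyApply, hg σ hσ]⟩

lemma IsFixedPoly.eval_apply {g : Polynomial Ω} (hg : IsFixedPoly A g) {σ : G_ℚ}
    (hσ : σ ∈ A.inertiaSubgroupIn ℚ) (x : Ω) : σ (g.eval x) = g.eval (σ x) := by
  rw [← eval_polyApply, hg.polyApply_eq hσ]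

lemma IsFixedPoly.add {f g : Polynomial Ω} (hf : IsFixedPoly A f) (hg : IsFixedPoly A g) :
    IsFixedPoly A (f + g) :=
  fun σ hσ i => by rw [coeff_add, map_add, hf σ hσ, hg σ hσ]

lemma IsFixedPoly.sub {f g : Polynomial Ω} (hf : IsFixedPoly A f) (hg : IsFixedPoly A g) :
    IsFixedPoly A (f - g) :=
  fun σ hσ i => by rw [coeff_sub, map_sub, hf σ hσ, hg σ hσ]

lemma IsFixedPoly.mul {f g : Polynomial Ω} (hf : IsFixedPoly A f) (hg : IsFixedPoly A g) :
    IsFixedPoly A (f * g) :=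
  isFixedPoly_iff.mpr fun σ hσ => by rw [map_mul, hf.polyApply_eq hσ, hg.polyApply_eq hσ]

lemma isFixedPoly_C {a : Ω} (ha : ∀ σ ∈ A.inertiaSubgroupIn ℚ, σ a = a) : IsFixedPoly A (C a) :=
  isFixedPoly_iff.mpr fun σ hσ => by rw [polyApply_C, ha σ hσ]

lemma isFixedPoly_X_pow (n : ℕ) : IsFixedPoly A ((X : Polynomial Ω) ^ n) :=
  isFixedPoly_iff.mpr fun σ _ => by rw [map_pow, polyApply_X]

namespace IsOver

/-- Terms whose values are distinct elements of `(1/e)ℤ` do not cancel. -/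
lemma exists_ord_sum (h : IsOver A p) {ι : Type*} {s : Finset ι} (hs : s.Nonempty) {f : ι → Ω}
    (hf : ∀ i ∈ s, f i ≠ 0) {e : ℕ} (he : 0 < e)
    (hgrid : ∀ i ∈ s, ∃ z : ℤ, ord A p (f i) = z / e)
    (hinj : ∀ i ∈ s, ∀ j ∈ s, ord A p (f i) = ord A p (f j) → i = j) :
    (∑ i ∈ s, f i) ≠ 0 ∧ ∃ i ∈ s, ord A p (∑ i ∈ s, f i) = ord A p (f i) ∧
      ∀ j ∈ s, ord A p (f i) ≤ ord A p (f j) := by
  classical
  obtain ⟨i₀, hi₀, hmin⟩ := s.exists_min_image (fun i => ord A p (f i)) hs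
  rw [← Finset.add_sum_erase s f hi₀]
  have hrest : Near A p (ord A p (f i₀) + 1 / e) (∑ i ∈ s.erase i₀, f i) := by
    refine h.near_sum _ _ fun i hi => Or.inr ?_
    obtain ⟨hne, hi⟩ := Finset.mem_erase.mp hi
    obtain ⟨z, hz⟩ := hgrid i hi
    obtain ⟨z₀, hz₀⟩ := hgrid i₀ hi₀
    have hlt : ord A p (f i₀) < ord A p (f i) :=
      lt_of_le_of_ne (hmin i hi) fun e' => hne (hinj i hi i₀ hi₀ e'.symm)
    rw [hz₀, hz] at hlt ⊢
    have he' : (0 : ℚ) < e := Nat.cast_pos.mpr he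
    have h1 : z₀ + 1 ≤ z := Int.add_one_le_iff.mpr
      (by exact_mod_cast (div_lt_div_iff_of_pos_right he').mp hlt)
    rw [← add_div]
    exact div_le_div_of_nonneg_right (by exact_mod_cast h1) he'.le
  obtain ⟨hne, heq⟩ := h.ord_add_eq (hf i₀ hi₀) hrest
    (lt_add_of_pos_right _ (div_pos one_pos (Nat.cast_pos.mpr he)))
  exact ⟨hne, i₀, hi₀, heq, hmin⟩

/-- The value at `x` with `ord x = 1/e` of a fixed polynomial of degree `< e`. -/
lemma exists_ord_eval (h : IsOver A p) {e : ℕ} (he : 0 < e) {x : Ω} (hx : x ≠ 0)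
    (hxe : ord A p x = 1 / e) {g : Polynomial Ω} (hg : IsFixedPoly A g) (hdeg : g.natDegree < e)
    (h0 : g ≠ 0) :
    g.eval x ≠ 0 ∧ ∃ i < e, g.coeff i ≠ 0 ∧
      ord A p (g.eval x) = ord A p (g.coeff i) + i / e ∧
      ∀ j, g.coeff j ≠ 0 → ord A p (g.eval x) ≤ ord A p (g.coeff j) + j / e := by
  classical
  have hval : ∀ i ∈ g.support, ∃ z : ℤ, ord A p (g.coeff i) = z ∧
      ord A p (g.coeff i * x ^ i) = z + (i : ℚ) / e := by
    intro i hi
    obtain ⟨z, hz⟩ := h.exists_ord_eq_int fun σ hσ => hg σ hσ i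
    refine ⟨z, hz, ?_⟩
    rw [h.ord_mul (mem_support_iff.mp hi) (pow_ne_zero _ hx), h.ord_pow hx, hxe, hz, mul_one_div]
  have hlt : ∀ i ∈ g.support, i < e := fun i hi =>
    (le_natDegree_of_mem_supp i hi).trans_lt hdeg
  obtain ⟨hne, i, hi, heq, hmin⟩ := h.exists_ord_sum (s := g.support)
    (Polynomial.support_nonempty.mpr h0) (f := fun i => g.coeff i * x ^ i)
    (fun i hi => mul_ne_zero (mem_support_iff.mp hi) (pow_ne_zero _ hx)) he
    (fun i hi => by
      obtain ⟨z, -, hz⟩ := hval i hi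
      refine ⟨z * e + i, ?_⟩
      rw [hz]
      push_cast
      field_simp)
    (fun i hi j hj hij => by
      obtain ⟨z, -, hz⟩ := hval i hi
      obtain ⟨w, -, hw⟩ := hval j hj
      rw [hz, hw] at hij
      field_simp at hij
      have h' : z * e + i = w * e + j := by
        have : ((z * e + i : ℤ) : ℚ) = ((w * e + j : ℤ) : ℚ) := by push_cast; linarith
        exact_mod_cast this
      have hmod := congrArg (· % (e : ℤ)) h'
      simp only [Int.mul_add_emod_self_right] at hmod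
      rw [Int.emod_eq_of_lt (by positivity) (by exact_mod_cast hlt i hi),
        Int.emod_eq_of_lt (by positivity) (by exact_mod_cast hlt j hj)] at hmod
      exact_mod_cast hmod)
  have hev : g.eval x = ∑ i ∈ g.support, g.coeff i * x ^ i := eval_eq_sum
  rw [← hev] at hne heq
  obtain ⟨z, hz, hz'⟩ := hval i hi
  refine ⟨hne, i, hlt i hi, mem_support_iff.mp hi, by rw [heq, hz', hz], fun j hj => ?_⟩
  obtain ⟨w, hw, hw'⟩ := hval j (mem_support_iff.mpr hj)
  rw [heq, hw, ← hw']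
  exact hmin j (mem_support_iff.mpr hj)

end IsOver

/-- Division by a product of integral linear factors keeps coefficients integral. -/
lemma coeff_divByMonic_mem {P : Polynomial Ω} (hP : ∀ i, P.coeff i ∈ A) (s : Finset Ω)
    (hs : ∀ r ∈ s, r ∈ A) (i : ℕ) : (P /ₘ ∏ r ∈ s, (X - C r)).coeff i ∈ A := by
  obtain ⟨P', rfl⟩ : P ∈ Polynomial.lifts A.subtype :=
    (lifts_iff_coeff_lifts _).mpr fun i => ⟨⟨_, hP i⟩, rfl⟩
  let f : Polynomial A := ∏ r : s, (X - C ⟨(r : Ω), hs r r.2⟩)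
  have hf : f.map A.subtype = ∏ r ∈ s, (X - C r) := by
    simp only [f, Polynomial.map_prod, Polynomial.map_sub, map_X, map_C]
    rw [← Finset.prod_coe_sort s]
    rfl
  rw [← hf, coe_mapRingHom, ← map_divByMonic _ (monic_prod_of_monic _ _ fun _ _ => monic_X_sub_C _),
    coeff_map]
  exact SetLike.coe_mem _

/-- An open normal subgroup of inertia with a uniformiser of its fixed field. -/
structure Unif (A : ValuationSubring Ω) (p : ℕ) (N : Subgroup G_ℚ) where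
  isOver : IsOver A p
  le : N ≤ A.inertiaSubgroupIn ℚ
  normal : ∀ g ∈ A.inertiaSubgroupIn ℚ, ∀ n ∈ N, g * n * g⁻¹ ∈ N
  e : ℕ
  index_eq : (N.subgroupOf (A.inertiaSubgroupIn ℚ)).index = e
  e_pos : 0 < e
  π : Ω
  π_ne : π ≠ 0
  π_fix : ∀ σ ∈ N, σ π = π
  ord_π : ord A p π = 1 / e

/-- Open normal subgroups of inertia have uniformisers. -/
lemma exists_unif (h : IsOver A p) {N : Subgroup G_ℚ} (hle : N ≤ A.inertiaSubgroupIn ℚ)
    (hnormal : ∀ g ∈ A.inertiaSubgroupIn ℚ, ∀ n ∈ N, g * n * g⁻¹ ∈ N)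
    (hopen : ∃ F : IntermediateField ℚ Ω, FiniteDimensional ℚ F ∧
      ∀ σ ∈ A.inertiaSubgroupIn ℚ, σ ∈ F.fixingSubgroup → σ ∈ N) : Nonempty (Unif A p N) := by
  obtain ⟨hidx, π, hπ, hfix, hord⟩ := exists_uniformiser h hle hopen
  exact ⟨⟨h, hle, hnormal, _, rfl, Nat.pos_of_ne_zero hidx, π, hπ, hfix, hord⟩⟩

namespace Unif

variable {N : Subgroup G_ℚ} (u : Unif A p N)

/-- Inertia elements in the left coset of an element of `N` move `π` in the same way. -/
lemma apply_eq_of_mem {σ τ : G_ℚ} (h : σ⁻¹ * τ ∈ N) : τ u.π = σ u.π := by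
  conv_lhs => rw [← mul_inv_cancel_left σ τ, AlgEquiv.mul_apply, u.π_fix _ h]

open Classical in
/-- The conjugates of `π` under inertia. -/
def roots : Finset Ω :=
  have : (N.subgroupOf (A.inertiaSubgroupIn ℚ)).FiniteIndex :=
    ⟨u.index_eq ▸ u.e_pos.ne'⟩
  (Set.finite_range fun q : ↥(A.inertiaSubgroupIn ℚ) ⧸ N.subgroupOf (A.inertiaSubgroupIn ℚ) =>
    (q.out : G_ℚ) u.π).toFinset

lemma mem_roots {x : Ω} : x ∈ u.roots ↔ ∃ σ ∈ A.inertiaSubgroupIn ℚ, σ u.π = x := by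
  rw [roots, Set.Finite.mem_toFinset]
  constructor
  · rintro ⟨q, rfl⟩
    exact ⟨_, q.out.2, rfl⟩
  · rintro ⟨σ, hσ, rfl⟩
    refine ⟨QuotientGroup.mk ⟨σ, hσ⟩, (u.apply_eq_of_mem ?_).symm⟩
    exact Subgroup.mem_subgroupOf.mp (QuotientGroup.eq.mp
      (QuotientGroup.out_eq' (QuotientGroup.mk (⟨σ, hσ⟩ : A.inertiaSubgroupIn ℚ))))

lemma π_mem_roots : u.π ∈ u.roots := u.mem_roots.mpr ⟨1, one_mem _, rfl⟩

lemma apply_mem_roots {σ : G_ℚ} (hσ : σ ∈ A.inertiaSubgroupIn ℚ) {x : Ω} (hx : x ∈ u.roots) :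
    σ x ∈ u.roots := by
  obtain ⟨τ, hτ, rfl⟩ := u.mem_roots.mp hx
  exact u.mem_roots.mpr ⟨σ * τ, mul_mem hσ hτ, rfl⟩

lemma image_roots [DecidableEq Ω] {σ : G_ℚ} (hσ : σ ∈ A.inertiaSubgroupIn ℚ) :
    u.roots.image σ = u.roots :=
  Finset.eq_of_subset_of_card_le (Finset.image_subset_iff.mpr fun _ hx => u.apply_mem_roots hσ hx)
    (Finset.card_image_of_injective _ σ.injective).ge

lemma ord_root {x : Ω} (hx : x ∈ u.roots) : x ≠ 0 ∧ ord A p x = 1 / u.e := by
  obtain ⟨σ, hσ, rfl⟩ := u.mem_roots.mp hx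
  exact ⟨by simpa using u.π_ne,
    (u.isOver.ord_apply (MultRed.inertia_mem_decomposition hσ) _).trans u.ord_π⟩

lemma apply_root {n : G_ℚ} (hn : n ∈ N) {x : Ω} (hx : x ∈ u.roots) : n x = x := by
  obtain ⟨σ, hσ, rfl⟩ := u.mem_roots.mp hx
  have := u.apply_eq_of_mem (σ := σ) (τ := n * σ) (by
    simpa [mul_assoc] using u.normal σ⁻¹ (inv_mem hσ) n hn)
  exact this

lemma root_mem {x : Ω} (hx : x ∈ u.roots) : x ∈ fixRing A N :=
  ⟨(u.isOver.mem_iff (u.ord_root hx).1).mpr (by rw [(u.ord_root hx).2]; positivity),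
    fun _ hn => u.apply_root hn hx⟩

/-- The Eisenstein polynomial of `π`. -/
def poly : Polynomial Ω := ∏ x ∈ u.roots, (X - C x)

lemma poly_monic : u.poly.Monic := monic_prod_of_monic _ _ fun _ _ => monic_X_sub_C _

lemma natDegree_poly : u.poly.natDegree = u.roots.card := by
  rw [poly, natDegree_prod_of_monic _ _ fun _ _ => monic_X_sub_C _]
  simp

lemma isFixedPoly_poly : IsFixedPoly A u.poly := by
  classical
  refine isFixedPoly_iff.mpr fun σ hσ => ?_
  simp only [poly, map_prod, map_sub, polyApply_X, polyApply_C]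
  rw [← Finset.prod_image (f := fun x => X - C x) (fun a _ b _ e => σ.injective e),
    u.image_roots hσ]

lemma card_roots : u.roots.card = u.e := by
  classical
  have hfin : (N.subgroupOf (A.inertiaSubgroupIn ℚ)).FiniteIndex := ⟨u.index_eq ▸ u.e_pos.ne'⟩
  refine le_antisymm ?_ (not_lt.mp fun hlt => ?_)
  · rw [roots, ← Set.ncard_eq_toFinset_card _, ← Nat.card_coe_set_eq, ← u.index_eq]
    exact Finite.card_range_le _
  · have h := (u.isOver.exists_ord_eval u.e_pos u.π_ne u.ord_π u.isFixedPoly_poly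
      (u.natDegree_poly ▸ hlt) u.poly_monic.ne_zero).1
    exact h (by rw [poly, eval_prod]; exact Finset.prod_eq_zero u.π_mem_roots (by simp))

lemma natDegree_poly_eq : u.poly.natDegree = u.e := u.natDegree_poly.trans u.card_roots

/-- Only `N` fixes `π`. -/
lemma mem_of_apply_eq {σ : G_ℚ} (hσ : σ ∈ A.inertiaSubgroupIn ℚ) (h : σ u.π = u.π) : σ ∈ N := by
  classical
  have hfin : (N.subgroupOf (A.inertiaSubgroupIn ℚ)).FiniteIndex := ⟨u.index_eq ▸ u.e_pos.ne'⟩
  have hinj : Function.Injective fun q : ↥(A.inertiaSubgroupIn ℚ) ⧸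
      N.subgroupOf (A.inertiaSubgroupIn ℚ) => (q.out : G_ℚ) u.π := by
    have : Fintype (↥(A.inertiaSubgroupIn ℚ) ⧸ N.subgroupOf (A.inertiaSubgroupIn ℚ)) :=
      Fintype.ofFinite _
    have hc := u.card_roots
    rw [roots, Set.Finite.toFinset_range, ← u.index_eq, Subgroup.index_eq_card,
      Nat.card_eq_fintype_card, ← Finset.card_univ] at hc
    intro a b hab
    exact Finset.card_image_iff.mp hc (Finset.mem_univ a) (Finset.mem_univ b) hab
  have key : ∀ τ : ↥(A.inertiaSubgroupIn ℚ),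
      ((QuotientGroup.mk τ : _ ⧸ N.subgroupOf (A.inertiaSubgroupIn ℚ)).out : G_ℚ) u.π =
        (τ : G_ℚ) u.π := fun τ => (u.apply_eq_of_mem (Subgroup.mem_subgroupOf.mp
          (QuotientGroup.eq.mp (QuotientGroup.out_eq' (QuotientGroup.mk τ))))).symm
  have h1 : (QuotientGroup.mk (⟨σ, hσ⟩ : A.inertiaSubgroupIn ℚ) : _ ⧸ N.subgroupOf _) =
      QuotientGroup.mk (1 : A.inertiaSubgroupIn ℚ) := hinj (by
    dsimp only
    rw [key, key]
    exact h)
  simpa [Subgroup.mem_subgroupOf] using QuotientGroup.eq.mp h1.symm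

lemma apply_eq_apply_iff {σ τ : G_ℚ} (hσ : σ ∈ A.inertiaSubgroupIn ℚ)
    (hτ : τ ∈ A.inertiaSubgroupIn ℚ) : τ u.π = σ u.π ↔ σ⁻¹ * τ ∈ N := by
  refine ⟨fun h => u.mem_of_apply_eq (mul_mem (inv_mem hσ) hτ) ?_, u.apply_eq_of_mem⟩
  rw [AlgEquiv.mul_apply, h, ← AlgEquiv.mul_apply, inv_mul_cancel, AlgEquiv.one_apply]

/-- Eisenstein: the constant term has value one and the others at least one. -/
lemma poly_eisenstein :
    u.poly.coeff 0 ≠ 0 ∧ ord A p (u.poly.coeff 0) = 1 ∧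
      ∀ i < u.e, Near A p 1 (u.poly.coeff i) := by
  set g := u.poly - X ^ u.e with hg
  have heval : g.eval u.π = -u.π ^ u.e := by
    have : u.poly.eval u.π = 0 := by
      rw [poly, eval_prod]; exact Finset.prod_eq_zero u.π_mem_roots (by simp)
    simp [hg, this]
  have hg0 : g ≠ 0 := fun e => pow_ne_zero u.e u.π_ne (by simpa [e] using heval.symm)
  have hdeg : g.natDegree < u.e := by
    refine (natDegree_lt_iff_degree_lt hg0).mpr ?_
    refine (degree_sub_lt_left ?_ u.poly_monic.ne_zero ?_).trans_le ?_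
    · rw [degree_eq_natDegree u.poly_monic.ne_zero, u.natDegree_poly_eq, degree_X_pow]
    · rw [u.poly_monic.leadingCoeff, (monic_X_pow u.e).leadingCoeff]
    · rw [degree_eq_natDegree u.poly_monic.ne_zero, u.natDegree_poly_eq]
  obtain ⟨-, i, hie, hi0, hi, hmin⟩ := u.isOver.exists_ord_eval u.e_pos u.π_ne u.ord_π
    (u.isFixedPoly_poly.sub (isFixedPoly_X_pow _)) hdeg hg0
  have hone : ord A p (g.eval u.π) = 1 := by
    rw [heval, u.isOver.ord_neg, u.isOver.ord_pow u.π_ne, u.ord_π, mul_one_div,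
      div_self (Nat.cast_ne_zero.mpr u.e_pos.ne')]
  rw [hone] at hi hmin
  have hco : ∀ j < u.e, g.coeff j = u.poly.coeff j := fun j hj => by
    simp [hg, coeff_X_pow, hj.ne]
  have he : (0 : ℚ) < u.e := Nat.cast_pos.mpr u.e_pos
  obtain ⟨z, hz⟩ := u.isOver.exists_ord_eq_int fun σ hσ =>
    (u.isFixedPoly_poly.sub (isFixedPoly_X_pow u.e)) σ hσ i
  have hz1 : z = 1 ∧ i = 0 := by
    rw [hz] at hi
    field_simp at hi
    have h' : (u.e : ℤ) = z * u.e + i := by exact_mod_cast (by linarith : (u.e : ℚ) = z * u.e + i)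
    have hi' : (i : ℤ) < u.e := by exact_mod_cast hie
    have hnn : (0 : ℤ) ≤ i := Int.natCast_nonneg i
    rcases lt_trichotomy z 1 with hz' | hz' | hz'
    · exfalso; nlinarith
    · exact ⟨hz', by rw [hz'] at h'; omega⟩
    · exfalso; nlinarith
  obtain ⟨rfl, rfl⟩ := hz1
  rw [hco 0 u.e_pos] at hi0 hz
  refine ⟨hi0, by simpa using hz, fun j hj => ?_⟩
  rcases eq_or_ne (u.poly.coeff j) 0 with hj0 | hj0
  · exact Or.inl hj0
  · refine Or.inr ?_
    obtain ⟨w, hw⟩ := u.isOver.exists_ord_eq_int fun σ hσ => u.isFixedPoly_poly σ hσ j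
    have h1 := hmin j (by rw [hco j hj]; exact hj0)
    rw [hco j hj, hw] at h1
    rw [hw]
    have h2 : (j : ℚ) / u.e < 1 := (div_lt_one he).mpr (by exact_mod_cast hj)
    have h3 : (0 : ℤ) < w := by
      have : (0 : ℚ) < w := by linarith
      exact_mod_cast this
    exact_mod_cast h3

/-- A fixed element is a unique fixed polynomial in `π` of degree `< e`. -/
theorem exists_repr {y : Ω} (hy : ∀ σ ∈ N, σ y = y) :
    ∃ P : Polynomial Ω, IsFixedPoly A P ∧ P.degree < u.e ∧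
      ∀ σ ∈ A.inertiaSubgroupIn ℚ, P.eval (σ u.π) = σ y := by
  classical
  let r : Ω → Ω := fun x =>
    if hx : ∃ σ ∈ A.inertiaSubgroupIn ℚ, σ u.π = x then hx.choose y else 0
  have hr : ∀ σ ∈ A.inertiaSubgroupIn ℚ, r (σ u.π) = σ y := by
    intro σ hσ
    have hx : ∃ τ ∈ A.inertiaSubgroupIn ℚ, τ u.π = σ u.π := ⟨σ, hσ, rfl⟩
    simp only [r, dif_pos hx]
    obtain ⟨h1, h2⟩ := hx.choose_spec
    have := (u.apply_eq_apply_iff hσ h1).mp h2
    conv_lhs => rw [← mul_inv_cancel_left σ hx.choose, AlgEquiv.mul_apply, hy _ this]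
  set P := Lagrange.interpolate u.roots id r with hP
  have hinj : Set.InjOn (id : Ω → Ω) u.roots := Set.injOn_id _
  have hdeg : P.degree < u.e := u.card_roots ▸ Lagrange.degree_interpolate_lt r hinj
  have hval : ∀ σ ∈ A.inertiaSubgroupIn ℚ, P.eval (σ u.π) = σ y := fun σ hσ =>
    (Lagrange.eval_interpolate_at_node r hinj (u.mem_roots.mpr ⟨σ, hσ, rfl⟩)).trans (hr σ hσ)
  refine ⟨P, isFixedPoly_iff.mpr fun σ hσ => ?_, hdeg, hval⟩
  refine Polynomial.eq_of_degrees_lt_of_eval_finset_eq u.roots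
    (degree_map_le.trans_lt (u.card_roots ▸ hdeg)) (u.card_roots ▸ hdeg) fun x hx => ?_
  obtain ⟨τ, hτ, rfl⟩ := u.mem_roots.mp hx
  have hmem : σ⁻¹ * τ ∈ A.inertiaSubgroupIn ℚ := mul_mem (inv_mem hσ) hτ
  have e1 : τ u.π = σ ((σ⁻¹ * τ) u.π) := by
    rw [← AlgEquiv.mul_apply, mul_inv_cancel_left]
  conv_lhs => rw [e1, eval_polyApply, hval _ hmem, ← AlgEquiv.mul_apply, mul_inv_cancel_left]
  exact (hval τ hτ).symm

lemma eq_of_eval_eq {P Q : Polynomial Ω} (hP : IsFixedPoly A P) (hQ : IsFixedPoly A Q)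
    (hPd : P.degree < u.e) (hQd : Q.degree < u.e) (h : P.eval u.π = Q.eval u.π) : P = Q := by
  by_contra hne
  have hd : (P - Q).natDegree < u.e := (natDegree_lt_iff_degree_lt (sub_ne_zero.mpr hne)).mpr
    ((degree_sub_le P Q).trans_lt (max_lt hPd hQd))
  exact (u.isOver.exists_ord_eval u.e_pos u.π_ne u.ord_π (hP.sub hQ) hd (sub_ne_zero.mpr hne)).1
    (by rw [eval_sub, h, sub_self])

lemma coeff_mem {P : Polynomial Ω} (hP : IsFixedPoly A P) (hPd : P.degree < u.e)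
    (h : P.eval u.π ∈ A) (i : ℕ) : P.coeff i ∈ A := by
  rcases eq_or_ne (P.coeff i) 0 with e | e
  · rw [e]; exact zero_mem A
  have hP0 : P ≠ 0 := fun e' => e (by simp [e'])
  obtain ⟨hne, -, -, -, -, hmin⟩ := u.isOver.exists_ord_eval u.e_pos u.π_ne u.ord_π hP
    ((natDegree_lt_iff_degree_lt hP0).mpr hPd) hP0
  have h1 := hmin i e
  have h2 := (u.isOver.mem_iff hne).mp h
  obtain ⟨z, hz⟩ := u.isOver.exists_ord_eq_int fun σ hσ => hP σ hσ i
  rw [u.isOver.mem_iff e, hz]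
  rw [hz] at h1
  have hid : i < u.e := (le_natDegree_of_ne_zero e).trans_lt
    ((natDegree_lt_iff_degree_lt hP0).mpr hPd)
  have h3 : (i : ℚ) / u.e < 1 :=
    (div_lt_one (Nat.cast_pos.mpr u.e_pos)).mpr (by exact_mod_cast hid)
  have : (-1 : ℤ) < z := by
    have : (-1 : ℚ) < z := by linarith
    exact_mod_cast this
  exact_mod_cast (by omega : (0 : ℤ) ≤ z)

/-- Values of fixed elements lie in `(1/e)ℤ`. -/
lemma exists_ord_eq_div {y : Ω} (hy : ∀ σ ∈ N, σ y = y) (hy0 : y ≠ 0) :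
    ∃ z : ℤ, ord A p y = z / u.e := by
  obtain ⟨P, hP, hPd, hval⟩ := u.exists_repr hy
  have h1 : P.eval u.π = y := hval 1 (one_mem _)
  have hP0 : P ≠ 0 := fun e => hy0 (by rw [← h1, e, eval_zero])
  obtain ⟨-, i, -, -, hi, -⟩ := u.isOver.exists_ord_eval u.e_pos u.π_ne u.ord_π hP
    ((natDegree_lt_iff_degree_lt hP0).mpr hPd) hP0
  obtain ⟨z, hz⟩ := u.isOver.exists_ord_eq_int fun σ hσ => hP σ hσ i
  refine ⟨z * u.e + i, ?_⟩
  rw [← h1, hi, hz]
  have := u.e_pos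
  push_cast
  field_simp

end Unif

/-- Congruent arguments give congruent values of an integral polynomial. -/
lemma IsOver.near_eval_sub (h : IsOver A p) {P : Polynomial Ω} (hP : ∀ i, P.coeff i ∈ A) {x y : Ω}
    (hx : x ∈ A) (hy : y ∈ A) {δ : ℚ} (hd : Near A p δ (x - y)) :
    Near A p δ (P.eval x - P.eval y) := by
  rw [eval_eq_sum_range, eval_eq_sum_range, ← Finset.sum_sub_distrib]
  refine h.near_sum _ _ fun i _ => ?_
  rw [← mul_sub, ← geom_sum₂_mul]
  exact h.near_mul_left (hP i) (h.near_mul_left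
    (sum_mem fun j _ => mul_mem (pow_mem hx _) (pow_mem hy _)) hd)

/-- An inertia element moving `π` by `ord ≥ δ` moves every fixed integer by `ord ≥ δ`. -/
theorem Unif.near_apply_sub {N : Subgroup G_ℚ} (u : Unif A p N) {σ : G_ℚ}
    (hσ : σ ∈ A.inertiaSubgroupIn ℚ) {δ : ℚ} (hd : Near A p δ (σ u.π - u.π)) {y : Ω}
    (hy : y ∈ fixRing A N) : Near A p δ (σ y - y) := by
  obtain ⟨P, hP, hPd, hval⟩ := u.exists_repr hy.2
  have h1 : P.eval u.π = y := hval 1 (one_mem _)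
  rw [← hval σ hσ, ← h1]
  exact u.isOver.near_eval_sub (u.coeff_mem hP hPd (h1 ▸ hy.1))
    (u.root_mem (u.mem_roots.mpr ⟨σ, hσ, rfl⟩)).1 (u.root_mem u.π_mem_roots).1 hd

end Fermat.Agent.FlatJ0
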