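import Fermat.Agent.FlatJ0.Ramif.Basic
import Fermat.Agent.EllLocal.TameChar
import Fermat.Agent.TameInertia.Qbar

/-!
# Leading residues of `σ π - π`

For an inertia element with `ord (σ π - π) ≥ (l + 1) / e` the residue of `(σ π - π) / π ^ (l + 1)`
is additive; conjugation by the decomposition group is semilinear on it.
-/

noncomputable section

namespace Fermat.Agent.FlatJ0

open EllLocal (resFun kummerRes)

local notation "Ω" => AlgebraicClosure ℚ
local notation "G_ℚ" => (AlgebraicClosure ℚ) ≃ₐ[ℚ] (AlgebraicClosure ℚ)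

variable {A : ValuationSubring Ω} {p : ℕ}

lemma IsOver.apply_mem (h : IsOver A p) {σ : G_ℚ} (hσ : σ ∈ A.decompositionSubgroup ℚ) {x : Ω}
    (hx : x ∈ A) : σ x ∈ A :=
  h.mem_of_near ((h.near_apply hσ).mpr (h.near_of_mem hx)) le_rfl

lemma IsOver.resFun_eq_of_near (h : IsOver A p) {x y : Ω} (hx : x ∈ A) (hy : y ∈ A) {δ : ℚ}
    (hδ : 0 < δ) (hxy : Near A p δ (x - y)) : resFun A x = resFun A y :=
  (EllLocal.resFun_eq_iff hx hy).mpr (A.mem_nonunits_iff.mp (h.nonunit_of_near hxy hδ))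

namespace Unif

variable {N : Subgroup G_ℚ} (u : Unif A p N)

/-- `σ π ≡ π` modulo `ord ≥ (l + 1) / e`. -/
def Wild (l : ℕ) (σ : G_ℚ) : Prop := Near A p (((l : ℚ) + 1) / u.e) (σ u.π - u.π)

/-- The residue of `(σ π - π) / π ^ (l + 1)`. -/
def theta (l : ℕ) (σ : G_ℚ) : IsLocalRing.ResidueField A :=
  resFun A ((σ u.π - u.π) / u.π ^ (l + 1))

lemma Wild.mono {l m : ℕ} {σ : G_ℚ} (hσ : u.Wild l σ) (hm : m ≤ l) : u.Wild m σ :=
  Near.mono hσ (div_le_div_of_nonneg_right (by exact_mod_cast Nat.add_le_add_right hm 1)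
    (Nat.cast_nonneg _))

lemma wild_of_mem {l : ℕ} {σ : G_ℚ} (hσ : σ ∈ N) : u.Wild l σ :=
  Or.inl (by rw [u.π_fix σ hσ, sub_self])

lemma theta_of_mem {l : ℕ} {σ : G_ℚ} (hσ : σ ∈ N) : u.theta l σ = 0 := by
  rw [theta, u.π_fix σ hσ, sub_self, zero_div, EllLocal.resFun_of_mem A.zero_mem]
  exact map_zero _

lemma sub_fixed {σ : G_ℚ} (hσ : σ ∈ A.inertiaSubgroupIn ℚ) :
    ∀ τ ∈ N, τ (σ u.π - u.π) = σ u.π - u.π := fun τ hτ => by
  rw [map_sub, u.π_fix τ hτ, u.apply_root hτ (u.mem_roots.mpr ⟨σ, hσ, rfl⟩)]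

lemma wild_zero {σ : G_ℚ} (hσ : σ ∈ A.inertiaSubgroupIn ℚ) : u.Wild 0 σ := by
  rw [Wild, Nat.cast_zero, zero_add]
  exact u.isOver.near_sub (Or.inr (u.ord_root (u.mem_roots.mpr ⟨σ, hσ, rfl⟩)).2.ge)
    (Or.inr u.ord_π.ge)

/-- The quotient defining `theta`. -/
lemma div_pow_mem {x : Ω} {m : ℕ} (hx : Near A p ((m : ℚ) / u.e) x) : x / u.π ^ m ∈ A := by
  rcases eq_or_ne x 0 with rfl | h0
  · rw [zero_div]; exact A.zero_mem
  rw [u.isOver.mem_iff (div_ne_zero h0 (pow_ne_zero m u.π_ne)),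
    u.isOver.ord_div h0 (pow_ne_zero m u.π_ne), u.isOver.ord_pow u.π_ne, u.ord_π, mul_one_div,
    sub_nonneg]
  exact hx.resolve_left h0

lemma wild_div_mem {l : ℕ} {σ : G_ℚ} (hσ : u.Wild l σ) :
    (σ u.π - u.π) / u.π ^ (l + 1) ∈ A :=
  u.div_pow_mem (by rw [Nat.cast_add, Nat.cast_one]; exact hσ)

lemma theta_eq_zero_iff {l : ℕ} {σ : G_ℚ} (hI : σ ∈ A.inertiaSubgroupIn ℚ) (hσ : u.Wild l σ) :
    u.theta l σ = 0 ↔ u.Wild (l + 1) σ := by
  have hmem := u.wild_div_mem hσ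
  rw [theta, EllLocal.resFun_eq_zero_iff hmem, Wild, Near]
  rcases eq_or_ne (σ u.π - u.π) 0 with h0 | h0
  · simp [h0]
  have hd : (σ u.π - u.π) / u.π ^ (l + 1) ≠ 0 := div_ne_zero h0 (pow_ne_zero _ u.π_ne)
  rw [← ValuationSubring.mem_nonunits_iff, u.isOver.nonunit_iff hd,
    u.isOver.ord_div h0 (pow_ne_zero _ u.π_ne), u.isOver.ord_pow u.π_ne, u.ord_π, mul_one_div,
    sub_pos]
  simp only [h0, false_or]
  obtain ⟨z, hz⟩ := u.exists_ord_eq_div (u.sub_fixed hI) h0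
  have he : (0 : ℚ) < u.e := Nat.cast_pos.mpr u.e_pos
  rw [hz, div_lt_div_iff_of_pos_right he, div_le_div_iff_of_pos_right he]
  push_cast
  constructor
  · intro h
    have : ((l : ℤ) + 1 : ℤ) < z := by exact_mod_cast h
    exact_mod_cast (Int.add_one_le_iff.mpr this)
  · intro h; linarith

/-- An element outside `N` has an exact level. -/
lemma exists_level {σ : G_ℚ} (hI : σ ∈ A.inertiaSubgroupIn ℚ) (hσ : σ ∉ N) (h1 : u.Wild 1 σ) :
    ∃ l : ℕ, 1 ≤ l ∧ ord A p (σ u.π - u.π) = ((l : ℚ) + 1) / u.e ∧ u.Wild l σ ∧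
      u.theta l σ ≠ 0 := by
  have h0 : σ u.π - u.π ≠ 0 := fun e => hσ (u.mem_of_apply_eq hI (sub_eq_zero.mp e))
  obtain ⟨z, hz⟩ := u.exists_ord_eq_div (u.sub_fixed hI) h0
  have he : (0 : ℚ) < u.e := Nat.cast_pos.mpr u.e_pos
  have h2 := h1.resolve_left h0
  rw [hz, div_le_div_iff_of_pos_right he] at h2
  norm_num at h2
  have h2' : (2 : ℤ) ≤ z := by exact_mod_cast h2
  obtain ⟨l, rfl⟩ : ∃ l : ℕ, z = (l : ℤ) + 1 := ⟨(z - 1).toNat, by omega⟩
  have hw : u.Wild l σ := Or.inr (by rw [hz]; push_cast; rfl)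
  refine ⟨l, by omega, by rw [hz]; push_cast; rfl, hw, fun hθ => ?_⟩
  have := ((u.theta_eq_zero_iff hI hw).mp hθ).resolve_left h0
  rw [hz, div_le_div_iff_of_pos_right he] at this
  push_cast at this
  linarith

lemma theta_zero_eq {σ : G_ℚ} (hI : σ ∈ A.inertiaSubgroupIn ℚ) :
    u.theta 0 σ = kummerRes A u.π σ - 1 := by
  have hd := MultRed.inertia_mem_decomposition hI
  have h1 : σ u.π / u.π ∈ A :=
    (A.valuation_le_one_iff _).mp (EllLocal.smul_div_mem hd u.π_ne).le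
  rw [theta, zero_add, pow_one, sub_div, div_self u.π_ne, EllLocal.resFun_sub h1 A.one_mem,
    EllLocal.resFun_of_mem A.one_mem, kummerRes]
  exact congrArg _ (map_one _)

lemma wild_one_iff {σ : G_ℚ} (hI : σ ∈ A.inertiaSubgroupIn ℚ) :
    u.Wild 1 σ ↔ kummerRes A u.π σ = 1 := by
  rw [← u.theta_eq_zero_iff hI (u.wild_zero hI), u.theta_zero_eq hI, sub_eq_zero]

lemma kummerRes_pow {σ : G_ℚ} (hI : σ ∈ A.inertiaSubgroupIn ℚ) (n : ℕ) :
    kummerRes A u.π (σ ^ n) = kummerRes A u.π σ ^ n := by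
  induction n with
  | zero => rw [pow_zero, pow_zero, EllLocal.kummerRes_one u.π_ne]
  | succ n ih =>
    rw [pow_succ, pow_succ, EllLocal.kummerRes_mul (pow_mem hI n) hI u.π_ne, ih]

lemma kummerRes_of_mem {σ : G_ℚ} (hσ : σ ∈ N) : kummerRes A u.π σ = 1 :=
  (u.wild_one_iff (u.le hσ)).mp (u.wild_of_mem hσ)

/-- Elements of `p`-power order modulo `N` are wild. -/
lemma wild_one_of_pow_mem {σ : G_ℚ} (hI : σ ∈ A.inertiaSubgroupIn ℚ) {n : ℕ}
    (h : σ ^ p ^ n ∈ N) : u.Wild 1 σ := by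
  have hc : CharP (IsLocalRing.ResidueField A) p :=
    EllLocal.charP_kA u.isOver.prime u.isOver.liesOver
  have : Fact p.Prime := ⟨u.isOver.prime⟩
  rw [u.wild_one_iff hI, ← sub_eq_zero]
  refine eq_zero_of_pow_eq_zero (n := p ^ n) ?_
  rw [sub_pow_char_pow, one_pow, ← u.kummerRes_pow hI, u.kummerRes_of_mem h, sub_self]

lemma wild_mul {l : ℕ} {σ τ : G_ℚ} (hσ : σ ∈ A.inertiaSubgroupIn ℚ) (hs : u.Wild l σ)
    (ht : u.Wild l τ) : u.Wild l (σ * τ) := by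
  have e : (σ * τ) u.π - u.π = σ (τ u.π - u.π) + (σ u.π - u.π) := by
    rw [AlgEquiv.mul_apply, map_sub]; ring
  rw [Wild, e]
  exact u.isOver.near_add
    ((u.isOver.near_apply (MultRed.inertia_mem_decomposition hσ)).mpr ht) hs

lemma wild_pow {l : ℕ} {σ : G_ℚ} (hσ : σ ∈ A.inertiaSubgroupIn ℚ) (hs : u.Wild l σ) (n : ℕ) :
    u.Wild l (σ ^ n) := by
  induction n with
  | zero => exact u.wild_of_mem (one_mem N)
  | succ n ih => rw [pow_succ]; exact u.wild_mul (pow_mem hσ n) ih hs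

/-- `theta` is additive. -/
theorem theta_mul {l : ℕ} (hl : 1 ≤ l) {σ τ : G_ℚ} (hσ : σ ∈ A.inertiaSubgroupIn ℚ)
    (hs : u.Wild l σ) (ht : u.Wild l τ) :
    u.theta l (σ * τ) = u.theta l σ + u.theta l τ := by
  have h := u.isOver
  have hd := MultRed.inertia_mem_decomposition hσ
  have hq := u.wild_div_mem ht
  have hr : σ u.π / u.π ∈ A :=
    (A.valuation_le_one_iff _).mp (EllLocal.smul_div_mem hd u.π_ne).le
  have hr1 : resFun A (σ u.π / u.π) = 1 := (u.wild_one_iff hσ).mp (hs.mono u hl)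
  have hσπ : σ u.π ≠ 0 := by simpa using u.π_ne
  have e : ((σ * τ) u.π - u.π) / u.π ^ (l + 1) =
      σ ((τ u.π - u.π) / u.π ^ (l + 1)) * (σ u.π / u.π) ^ (l + 1) +
        (σ u.π - u.π) / u.π ^ (l + 1) := by
    rw [AlgEquiv.mul_apply, map_div₀, map_pow, map_sub, div_pow,
      div_mul_div_cancel₀ (pow_ne_zero _ hσπ), ← add_div]
    ring
  have hp : resFun A ((σ u.π / u.π) ^ (l + 1)) = 1 := by
    rw [EllLocal.resFun_of_mem (pow_mem hr _),
      show (⟨_, pow_mem hr (l + 1)⟩ : A) = (⟨_, hr⟩ : A) ^ (l + 1) from rfl, map_pow,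
      ← EllLocal.resFun_of_mem hr, hr1, one_pow]
  rw [theta, e, EllLocal.resFun_add (mul_mem (h.apply_mem hd hq) (pow_mem hr _))
    (u.wild_div_mem hs), EllLocal.resFun_mul (h.apply_mem hd hq) (pow_mem hr _), hp, mul_one,
    EllLocal.resFun_inertia hσ hq, add_comm]
  rfl

lemma theta_pow {l : ℕ} (hl : 1 ≤ l) {σ : G_ℚ} (hσ : σ ∈ A.inertiaSubgroupIn ℚ)
    (hs : u.Wild l σ) (n : ℕ) : u.theta l (σ ^ n) = n * u.theta l σ := by
  induction n with
  | zero => rw [pow_zero, u.theta_of_mem (one_mem N), Nat.cast_zero, zero_mul]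
  | succ n ih =>
    rw [pow_succ, u.theta_mul hl (pow_mem hσ n) (u.wild_pow hσ hs n) hs, ih, Nat.cast_succ]
    ring

lemma mem_of_pow_mem {σ : G_ℚ} (hσ : σ ∈ A.inertiaSubgroupIn ℚ) (h1 : u.Wild 1 σ) {m : ℕ}
    (hm : ¬ p ∣ m) (h : σ ^ m ∈ N) : σ ∈ N := by
  by_contra hN
  obtain ⟨l, hl, -, hw, hθ⟩ := u.exists_level hσ hN h1
  have := u.theta_pow hl hσ hw m
  rw [u.theta_of_mem h, eq_comm, mul_eq_zero] at this
  have hc : CharP (IsLocalRing.ResidueField A) p :=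
    EllLocal.charP_kA u.isOver.prime u.isOver.liesOver
  exact hm ((CharP.cast_eq_zero_iff _ p m).mp (this.resolve_right hθ))

/-- Conjugation by an element of the decomposition group normalising `N`. -/
theorem theta_conj {φ : G_ℚ} (hφ : φ ∈ A.decompositionSubgroup ℚ)
    (hn : ∀ n ∈ N, φ * n * φ⁻¹ ∈ N) {τ : G_ℚ} (hτ : τ ∈ A.inertiaSubgroupIn ℚ) {l : ℕ}
    (ht : u.Wild l τ) :
    u.Wild l (φ * τ * φ⁻¹) ∧ u.theta l (φ * τ * φ⁻¹) =
      kummerRes A u.π φ ^ l * resFun A (φ ((τ u.π - u.π) / u.π ^ (l + 1))) := by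
  have h := u.isOver
  have he : (0 : ℚ) < u.e := Nat.cast_pos.mpr u.e_pos
  set π' := φ⁻¹ u.π with hπ'
  have hπ'fix : ∀ n ∈ N, n π' = π' := fun n hnN => by
    calc n π' = φ⁻¹ ((φ * n * φ⁻¹) u.π) := by
          rw [hπ', ← AlgEquiv.mul_apply, ← AlgEquiv.mul_apply, mul_assoc φ, inv_mul_cancel_left]
      _ = π' := by rw [u.π_fix _ (hn n hnN)]
  have hordπ' : ord A p π' = 1 / u.e := by rw [hπ', h.ord_apply (inv_mem hφ), u.ord_π]
  have hπ'0 : π' ≠ 0 := by simpa [hπ'] using u.π_ne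
  set v := π' / u.π with hv
  have hv0 : v ≠ 0 := div_ne_zero hπ'0 u.π_ne
  have hvA : v ∈ A := (h.mem_iff hv0).mpr (by
    rw [hv, h.ord_div hπ'0 u.π_ne, hordπ', u.ord_π, sub_self])
  have hvfix : v ∈ fixRing A N := ⟨hvA, fun n hnN => by
    rw [hv, map_div₀, hπ'fix n hnN, u.π_fix n hnN]⟩
  have hvmul : u.π * v = π' := mul_div_cancel₀ _ u.π_ne
  have hφπ' : φ π' = u.π := by
    rw [hπ', ← AlgEquiv.mul_apply, mul_inv_cancel, AlgEquiv.one_apply]
  have hφπ : φ u.π ≠ 0 := by simpa using u.π_ne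
  have hw : φ u.π / u.π ∈ A :=
    (A.valuation_le_one_iff _).mp (EllLocal.smul_div_mem hφ u.π_ne).le
  have hdτ := MultRed.inertia_mem_decomposition hτ
  have hτv : τ v ∈ A := h.apply_mem hdτ hvA
  have hsplit : τ π' - π' = (τ u.π - u.π) * τ v + u.π * (τ v - v) := by
    rw [← hvmul, map_mul]; ring
  have hsmall : Near A p (((l : ℚ) + 2) / u.e) (u.π * (τ v - v)) := by
    have := h.near_mul (x := u.π) (Or.inr u.ord_π.ge) (u.near_apply_sub hτ ht hvfix)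
    exact this.mono (le_of_eq (by ring))
  have hconj : (φ * τ * φ⁻¹) u.π - u.π = φ (τ π' - π') := by
    rw [AlgEquiv.mul_apply, AlgEquiv.mul_apply, map_sub, hφπ', hπ']
  have hnear : Near A p (((l : ℚ) + 1) / u.e) (τ π' - π') := by
    rw [hsplit]
    refine h.near_add (h.near_mul_right ht hτv) (hsmall.mono ?_)
    exact div_le_div_of_nonneg_right (by linarith) he.le
  have hwild : u.Wild l (φ * τ * φ⁻¹) := by
    rw [Wild, hconj]; exact (h.near_apply hφ).mpr hnear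
  refine ⟨hwild, ?_⟩
  set q := (τ u.π - u.π) / u.π ^ (l + 1) with hq
  have hqA : q ∈ A := u.wild_div_mem ht
  set r := (τ v - v) / u.π ^ l with hr
  have hτq : τ π' - π' = u.π ^ (l + 1) * (q * τ v + r) := by
    have hpl : u.π ^ l ≠ 0 := pow_ne_zero _ u.π_ne
    have hpl1 : u.π ^ (l + 1) ≠ 0 := pow_ne_zero _ u.π_ne
    rw [hsplit, hq, hr, mul_add, ← mul_assoc, mul_div_cancel₀ _ hpl1, pow_succ]
    field_simp
  have hrA : r ∈ A :=
    u.div_pow_mem ((u.near_apply_sub hτ ht hvfix).mono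
      (div_le_div_of_nonneg_right (by linarith) he.le))
  have hr0 : Near A p (1 / u.e) r := by
    rcases eq_or_ne (τ v - v) 0 with e0 | e0
    · rw [hr, e0, zero_div]; exact near_zero _
    refine Or.inr ?_
    rw [hr, h.ord_div e0 (pow_ne_zero _ u.π_ne), h.ord_pow u.π_ne, u.ord_π, mul_one_div]
    have := (u.near_apply_sub hτ ht hvfix).resolve_left e0
    rw [add_div] at this
    linarith
  -- transport by `φ`
  have hval : ((φ * τ * φ⁻¹) u.π - u.π) / u.π ^ (l + 1) =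
      (φ u.π / u.π) ^ (l + 1) * φ (q * τ v + r) := by
    rw [hconj, hτq, map_mul, map_pow, div_pow]; ring
  have hB : q * τ v + r ∈ A := add_mem (mul_mem hqA hτv) hrA
  have hresτv : resFun A (φ (τ v)) = resFun A (φ v) :=
    h.resFun_eq_of_near (h.apply_mem hφ hτv) (h.apply_mem hφ hvA)
      (div_pos (by positivity : (0 : ℚ) < (l : ℚ) + 1) he)
      (by rw [← map_sub]; exact (h.near_apply hφ).mpr (u.near_apply_sub hτ ht hvfix))
  have hkey : resFun A (φ u.π / u.π) * resFun A (φ v) = 1 := by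
    rw [← EllLocal.resFun_mul hw (h.apply_mem hφ hvA)]
    have : φ u.π / u.π * φ v = 1 := by
      rw [hv, map_div₀, hφπ']
      field_simp
      exact div_self u.π_ne
    rw [this, EllLocal.resFun_of_mem A.one_mem]
    exact map_one _
  have hpow : resFun A ((φ u.π / u.π) ^ (l + 1)) = resFun A (φ u.π / u.π) ^ (l + 1) := by
    rw [EllLocal.resFun_of_mem (pow_mem hw _), EllLocal.resFun_of_mem hw, ← map_pow]
    rfl
  have hBres : resFun A (φ (q * τ v + r)) = resFun A (φ q) * resFun A (φ v) := by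
    rw [map_add, EllLocal.resFun_add (h.apply_mem hφ (mul_mem hqA hτv)) (h.apply_mem hφ hrA),
      map_mul, EllLocal.resFun_mul (h.apply_mem hφ hqA) (h.apply_mem hφ hτv), hresτv,
      h.resFun_eq_of_near (h.apply_mem hφ hrA) A.zero_mem (div_pos one_pos he)
        (by rw [sub_zero]; exact (h.near_apply hφ).mpr hr0),
      EllLocal.resFun_of_mem A.zero_mem,
      show IsLocalRing.residue A ⟨0, A.zero_mem⟩ = 0 from map_zero _, add_zero]
  rw [theta, hval, EllLocal.resFun_mul (pow_mem hw _) (h.apply_mem hφ hB), hBres, hpow,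
    pow_succ, kummerRes]
  linear_combination (resFun A (φ u.π / u.π) ^ l * resFun A (φ q)) * hkey

/-- Conjugation by inertia multiplies `theta` by a power of the tame character. -/
theorem theta_conj_inertia {σ τ : G_ℚ} (hσ : σ ∈ A.inertiaSubgroupIn ℚ)
    (hτ : τ ∈ A.inertiaSubgroupIn ℚ) {l : ℕ} (ht : u.Wild l τ) :
    u.Wild l (σ * τ * σ⁻¹) ∧
      u.theta l (σ * τ * σ⁻¹) = kummerRes A u.π σ ^ l * u.theta l τ := by
  obtain ⟨h1, h2⟩ := u.theta_conj (MultRed.inertia_mem_decomposition hσ) (u.normal σ hσ) hτ ht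
  exact ⟨h1, by rw [h2, EllLocal.resFun_inertia hσ (u.wild_div_mem ht)]; rfl⟩

/-- Conjugation by Frobenius. -/
theorem theta_conj_frobenius {φ τ : G_ℚ} (hφ : A.IsFrobeniusAt φ p)
    (hn : ∀ n ∈ N, φ * n * φ⁻¹ ∈ N) (hτ : τ ∈ A.inertiaSubgroupIn ℚ) {l : ℕ} (ht : u.Wild l τ) :
    u.Wild l (φ * τ * φ⁻¹) ∧
      u.theta l (φ * τ * φ⁻¹) = kummerRes A u.π φ ^ l * u.theta l τ ^ p := by
  obtain ⟨h1, h2⟩ := u.theta_conj hφ.mem_decompositionSubgroup hn hτ ht
  refine ⟨h1, ?_⟩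
  have hq := u.wild_div_mem ht
  rw [h2, theta]
  congr 1
  rw [EllLocal.resFun_of_mem hq, ← map_pow,
    EllLocal.resFun_of_mem (u.isOver.apply_mem hφ.mem_decompositionSubgroup hq), ← sub_eq_zero,
    ← map_sub, IsLocalRing.residue_eq_zero_iff, ← ValuationSubring.coe_mem_nonunits_iff]
  exact TameInertia.frobenius_sub_pow_mem hφ hq

/-- Levels are multiples of the order of the tame character of a commuting element. -/
lemma dvd_level {z τ : G_ℚ} (hz : z ∈ A.inertiaSubgroupIn ℚ) (hτ : τ ∈ A.inertiaSubgroupIn ℚ)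
    (hcomm : τ⁻¹ * (z * τ * z⁻¹) ∈ N) {d : ℕ}
    (hd : ∀ j : ℕ, kummerRes A u.π z ^ j = 1 → d ∣ j) {l : ℕ} (hl : 1 ≤ l) (ht : u.Wild l τ)
    (hθ : u.theta l τ ≠ 0) : d ∣ l := by
  obtain ⟨-, h2⟩ := u.theta_conj_inertia hz hτ ht
  have e : z * τ * z⁻¹ = τ * (τ⁻¹ * (z * τ * z⁻¹)) := by rw [mul_inv_cancel_left]
  rw [e, u.theta_mul hl hτ ht (u.wild_of_mem hcomm), u.theta_of_mem hcomm, add_zero] at h2
  exact hd l (mul_right_cancel₀ hθ (h2.symm.trans (one_mul _).symm))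

end Unif

end Fermat.Agent.FlatJ0
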