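import Fermat.Agent.FlatJ0.Ramif.Basic

/-!
# The ramification bound read on a uniformiser

Perturbing the Eisenstein polynomial of `π` by a multiple of `p ^ k X ^ j` gives homomorphisms
modulo `ord ≥ n / e`; Fontaine's property then bounds the sum of the values `ord (σ π - π)`
(Fontaine's converse).
-/

noncomputable section

open Polynomial

namespace Fermat.Agent.FlatJ0

local notation "Ω" => AlgebraicClosure ℚ
local notation "G_ℚ" => (AlgebraicClosure ℚ) ≃ₐ[ℚ] (AlgebraicClosure ℚ)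

variable {A : ValuationSubring Ω} {p : ℕ}

/-- An Eisenstein root has value `1 / e`. -/
lemma IsOver.ord_eisenstein_root (h : IsOver A p) {e : ℕ} (he : 0 < e) {g : Polynomial Ω}
    (hm : g.Monic) (hd : g.natDegree = e) (h0 : g.coeff 0 ≠ 0)
    (hord : ord A p (g.coeff 0) = 1) (hco : ∀ i < e, Near A p 1 (g.coeff i))
    {x : Ω} (hx : g.eval x = 0) : x ≠ 0 ∧ ord A p x = 1 / e := by
  classical
  have hx0 : x ≠ 0 := by
    rintro rfl
    rw [← coeff_zero_eq_eval_zero] at hx
    exact h0 hx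
  refine ⟨hx0, ?_⟩
  set v := ord A p x with hv
  have hsum : (∑ i ∈ Finset.range e, g.coeff i * x ^ i) + x ^ e = 0 := by
    have := eval_eq_sum_range (p := g) x
    rw [hx, hd, Finset.sum_range_succ] at this
    rw [← hd] at this
    rw [hm.coeff_natDegree, one_mul, hd] at this
    exact this.symm
  have hpow : ord A p (x ^ e) = e * v := h.ord_pow hx0 e
  have heQ : (0 : ℚ) < e := Nat.cast_pos.mpr he
  have hterm : ∀ i < e, Near A p (1 + i * v) (g.coeff i * x ^ i) := fun i hi =>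
    h.near_mul (hco i hi) (Or.inr (h.ord_pow hx0 i).ge)
  rcases lt_trichotomy v (1 / e) with hlt | heq | hgt
  · exfalso
    have hlt' : (e : ℚ) * v < 1 := by rw [lt_div_iff₀ heQ] at hlt; linarith
    set i₀ : ℕ := if 0 ≤ v then 0 else e - 1 with hi₀
    have hnear : Near A p (1 + i₀ * v) (∑ i ∈ Finset.range e, g.coeff i * x ^ i) := by
      refine h.near_sum _ _ fun i hi => (hterm i (Finset.mem_range.mp hi)).mono ?_
      rw [hi₀]
      split_ifs with hv0
      · rw [Nat.cast_zero, zero_mul, add_zero]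
        nlinarith [(Nat.cast_nonneg i : (0 : ℚ) ≤ i)]
      · have : (i : ℚ) ≤ (e - 1 : ℕ) := by
          exact_mod_cast Nat.le_sub_one_of_lt (Finset.mem_range.mp hi)
        nlinarith
    have hb : ord A p (x ^ e) < 1 + i₀ * v := by
      rw [hpow, hi₀]
      split_ifs with hv0
      · simpa using hlt'
      · rw [Nat.cast_pred he]; nlinarith
    obtain ⟨hne, -⟩ := h.ord_add_eq (pow_ne_zero e hx0) hnear hb
    exact hne (by rw [add_comm]; exact hsum)
  · exact heq
  · exfalso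
    have hv0 : 0 < v := lt_trans (div_pos one_pos heQ) hgt
    have hgt' : 1 < (e : ℚ) * v := by rw [div_lt_iff₀ heQ] at hgt; linarith
    have hrest : Near A p (min ((e : ℚ) * v) (1 + v))
        ((∑ i ∈ Finset.range e, g.coeff i * x ^ i) + x ^ e - g.coeff 0) := by
      obtain ⟨k, rfl⟩ : ∃ k, e = k + 1 := ⟨e - 1, by omega⟩
      rw [Finset.sum_range_succ', pow_zero, mul_one, add_right_comm, add_sub_cancel_right]
      refine h.near_add (h.near_sum _ _ fun i hi => ?_) ?_
      · refine (hterm (i + 1) (by have := Finset.mem_range.mp hi; omega)).mono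
          ((min_le_right _ _).trans ?_)
        have : (1 : ℚ) ≤ ((i + 1 : ℕ) : ℚ) := by exact_mod_cast Nat.succ_pos i
        nlinarith
      · exact Or.inr (hpow.symm ▸ min_le_left _ _)
    rw [hsum, zero_sub] at hrest
    have := hrest.resolve_left (neg_ne_zero.mpr h0)
    rw [h.ord_neg, hord] at this
    rcases min_le_iff.mp this with h' | h' <;> linarith

namespace Unif

variable {N : Subgroup G_ℚ} (u : Unif A p N) {γ : ℚ}

/-- The perturbed Eisenstein polynomial. -/
def perturb (k j : ℕ) : Polynomial Ω := u.poly + C ((p : Ω) ^ k) * X ^ j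

lemma isFixedPoly_perturb (k j : ℕ) : IsFixedPoly A (u.perturb k j) :=
  u.isFixedPoly_poly.add
    ((isFixedPoly_C fun σ _ => by rw [map_pow, map_natCast]).mul (isFixedPoly_X_pow j))

lemma degree_perturb_term {k j : ℕ} (hj : j < u.e) :
    (C ((p : Ω) ^ k) * X ^ j).degree < u.poly.degree := by
  rw [degree_C_mul_X_pow j (pow_ne_zero k u.isOver.natCast_ne_zero),
    degree_eq_natDegree u.poly_monic.ne_zero, u.natDegree_poly_eq]
  exact_mod_cast hj

lemma perturb_monic {k j : ℕ} (hj : j < u.e) : (u.perturb k j).Monic :=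
  u.poly_monic.add_of_left (u.degree_perturb_term hj)

lemma natDegree_perturb {k j : ℕ} (hj : j < u.e) : (u.perturb k j).natDegree = u.e := by
  rw [perturb, natDegree_eq_of_degree_eq (degree_add_eq_left_of_degree_lt
    (u.degree_perturb_term hj)), u.natDegree_poly_eq]

lemma perturb_root {k j : ℕ} (hj : j < u.e) (hk : 1 < (k : ℚ) + j / u.e) {x : Ω}
    (hx : (u.perturb k j).eval x = 0) : x ≠ 0 ∧ ord A p x = 1 / u.e := by
  obtain ⟨h0, h1, h2⟩ := u.poly_eisenstein
  have heQ : (0 : ℚ) < u.e := Nat.cast_pos.mpr u.e_pos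
  have hk1 : 1 ≤ k := by
    have : (j : ℚ) / u.e < 1 := (div_lt_one heQ).mpr (by exact_mod_cast hj)
    have : (0 : ℚ) < k := by linarith
    exact_mod_cast this
  have hpk : ord A p ((p : Ω) ^ k) = k := by
    rw [u.isOver.ord_pow u.isOver.natCast_ne_zero, u.isOver.ord_p, mul_one]
  have hco : ∀ i, (u.perturb k j).coeff i = u.poly.coeff i + if i = j then (p : Ω) ^ k else 0 :=
    fun i => by rw [perturb, coeff_add, coeff_C_mul, coeff_X_pow]; split_ifs <;> simp
  have hterm : ∀ i, i = j → (1 : ℚ) ≤ k := fun _ _ => by exact_mod_cast hk1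
  have h0' : (u.perturb k j).coeff 0 ≠ 0 ∧ ord A p ((u.perturb k j).coeff 0) = 1 := by
    rw [hco]
    split_ifs with hj0
    · subst hj0
      have hk2 : (1 : ℚ) < k := by simpa using hk
      have := u.isOver.ord_add_eq h0 (γ := k) (Or.inr hpk.ge) (by rw [h1]; exact hk2)
      exact ⟨this.1, this.2.trans h1⟩
    · rw [add_zero]; exact ⟨h0, h1⟩
  refine u.isOver.ord_eisenstein_root u.e_pos (u.perturb_monic hj) (u.natDegree_perturb hj)
    h0'.1 h0'.2 (fun i hi => ?_) hx
  rw [hco]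
  refine u.isOver.near_add (h2 i hi) ?_
  split_ifs with hij
  · exact Or.inr (by rw [hpk]; exact hterm i hij)
  · exact near_zero _

/-- A root of the perturbed polynomial gives a homomorphism modulo `γ`. -/
theorem exists_homMod {x : Ω} (hxA : x ∈ A) (hx : Near A p γ (u.poly.eval x)) :
    ∃ φ : Ω → Ω, IsHomMod A p N γ φ ∧
      ∀ σ ∈ A.inertiaSubgroupIn ℚ, σ x = x → ∀ y ∈ fixRing A N, σ (φ y) = φ y := by
  classical
  let φ : Ω → Ω := fun y =>
    if hy : y ∈ fixRing A N then (u.exists_repr hy.2).choose.eval x else 0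
  have spec : ∀ y ∈ fixRing A N, ∃ P : Polynomial Ω, IsFixedPoly A P ∧ P.degree < u.e ∧
      P.eval u.π = y ∧ (∀ i, P.coeff i ∈ A) ∧ φ y = P.eval x := by
    intro y hy
    obtain ⟨h1, h2, h3⟩ := (u.exists_repr hy.2).choose_spec
    have h4 : (u.exists_repr hy.2).choose.eval u.π = y := h3 1 (one_mem _)
    exact ⟨_, h1, h2, h4, u.coeff_mem h1 h2 (h4.symm ▸ hy.1), dif_pos hy⟩
  have hevA : ∀ P : Polynomial Ω, (∀ i, P.coeff i ∈ A) → P.eval x ∈ A := fun P hP => by
    rw [eval_eq_sum_range]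
    exact sum_mem fun i _ => mul_mem (hP i) (pow_mem hxA i)
  refine ⟨φ, ⟨fun y hy => ?_, fun y hy z hz => ?_, fun y hy z hz => ?_, fun y hy => ?_⟩,
    fun σ hσ hσx y hy => ?_⟩
  · obtain ⟨P, -, -, -, hP, e⟩ := spec y hy
    exact e ▸ hevA P hP
  · obtain ⟨P, hP, hPd, hPv, -, e1⟩ := spec y hy
    obtain ⟨Q, hQ, hQd, hQv, -, e2⟩ := spec z hz
    obtain ⟨R, hR, hRd, hRv, -, e3⟩ := spec (y + z) (add_mem hy hz)
    have : R = P + Q := u.eq_of_eval_eq hR (hP.add hQ) hRd
      ((degree_add_le P Q).trans_lt (max_lt hPd hQd)) (by rw [eval_add, hPv, hQv, hRv])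
    rw [e1, e2, e3, this, eval_add, add_sub_cancel_left, sub_self]
    exact near_zero _
  · obtain ⟨P, hP, hPd, hPv, hPA, e1⟩ := spec y hy
    obtain ⟨Q, hQ, hQd, hQv, hQA, e2⟩ := spec z hz
    obtain ⟨R, hR, hRd, hRv, hRA, e3⟩ := spec (y * z) (mul_mem hy hz)
    set g := P * Q - R
    have hg : IsFixedPoly A g := (hP.mul hQ).sub hR
    have hrem : g %ₘ u.poly = 0 := by
      have hfix : IsFixedPoly A (g %ₘ u.poly) := isFixedPoly_iff.mpr fun σ hσ => by
        rw [polyApply, coe_mapRingHom, map_modByMonic _ u.poly_monic, ← coe_mapRingHom]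
        have e1 := hg.polyApply_eq hσ
        have e2 := u.isFixedPoly_poly.polyApply_eq hσ
        rw [polyApply] at e1 e2
        rw [e1, e2]
      refine u.eq_of_eval_eq hfix (isFixedPoly_iff.mpr fun σ _ => map_zero _) ?_ ?_ ?_
      · refine (degree_modByMonic_lt g u.poly_monic).trans_eq ?_
        rw [degree_eq_natDegree u.poly_monic.ne_zero, u.natDegree_poly_eq]
      · rw [degree_zero]; exact WithBot.bot_lt_coe _
      · have h0 : u.poly.eval u.π = 0 := by
          rw [poly, eval_prod]; exact Finset.prod_eq_zero u.π_mem_roots (by simp)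
        have := congrArg (Polynomial.eval u.π) (modByMonic_add_div g u.poly)
        rw [eval_add, eval_mul, h0, zero_mul, add_zero] at this
        rw [this, eval_zero, eval_sub, eval_mul, hPv, hQv, hRv, sub_self]
    have hfac : g = u.poly * (g /ₘ u.poly) := by
      conv_lhs => rw [← modByMonic_add_div g u.poly, hrem, zero_add]
    have hgA : ∀ i, g.coeff i ∈ A := fun i => by
      rw [coeff_sub, coeff_mul]
      exact sub_mem (sum_mem fun m _ => mul_mem (hPA _) (hQA _)) (hRA i)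
    have hq : (g /ₘ u.poly).eval x ∈ A :=
      hevA _ fun i => coeff_divByMonic_mem hgA u.roots (fun r hr => (u.root_mem hr).1) i
    rw [e1, e2, e3, show R.eval x - P.eval x * Q.eval x = -g.eval x by
      simp only [g, eval_sub, eval_mul]; ring, hfac, eval_mul]
    exact u.isOver.near_neg (u.isOver.near_mul_right hx hq)
  · have hy' : y ∈ fixRing A N := ⟨hy.1, fun σ hσ => hy.2 σ (u.le hσ)⟩
    obtain ⟨P, hP, hPd, hPv, -, e⟩ := spec y hy'
    have : P = C y := u.eq_of_eval_eq hP (isFixedPoly_C hy.2) hPd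
      (degree_C_le.trans_lt (by exact_mod_cast u.e_pos)) (by rw [hPv, eval_C])
    rw [e, this, eval_C, sub_self]
    exact near_zero _
  · obtain ⟨P, hP, -, -, -, e⟩ := spec y hy
    rw [e, hP.eval_apply hσ, hσx]

/-- A fixed element near which the Eisenstein polynomial has a prescribed value. -/
theorem exists_fixed_root (hγ : 1 < γ) (hb : HasBound A p N γ) {n : ℕ}
    (hn : γ ≤ (n : ℚ) / u.e) :
    ∃ x : Ω, (∀ σ ∈ N, σ x = x) ∧ (∀ r ∈ u.roots, x - r ≠ 0) ∧
      (∑ r ∈ u.roots, ord A p (x - r)) = n / u.e ∧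
      ∀ r ∈ u.roots, ord A p (x - r) ≤ ord A p (x - u.π) := by
  classical
  set k := n / u.e
  set j := n % u.e
  have hj : j < u.e := Nat.mod_lt _ u.e_pos
  have heQ : (0 : ℚ) < u.e := Nat.cast_pos.mpr u.e_pos
  have hnkj : (n : ℚ) / u.e = k + j / u.e := by
    have : (n : ℚ) = k * u.e + j := by exact_mod_cast (Nat.div_add_mod' n u.e).symm
    rw [this]; field_simp
  obtain ⟨x, hx⟩ : ∃ x, (u.perturb k j).IsRoot x := IsAlgClosed.exists_root _ fun hd => by
    rw [degree_eq_natDegree (u.perturb_monic hj).ne_zero, u.natDegree_perturb hj] at hd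
    exact u.e_pos.ne' (by exact_mod_cast hd)
  have hroot : ∀ {y : Ω}, (u.perturb k j).eval y = 0 →
      y ≠ 0 ∧ ord A p y = 1 / u.e ∧ ord A p (u.poly.eval y) = n / u.e ∧ u.poly.eval y ≠ 0 := by
    intro y hy
    obtain ⟨hy0, hyo⟩ := u.perturb_root hj (hnkj ▸ hγ.trans_le hn) hy
    have hf : u.poly.eval y = -((p : Ω) ^ k * y ^ j) := by
      rw [perturb, eval_add, eval_mul, eval_C, eval_pow, eval_X] at hy
      exact eq_neg_of_add_eq_zero_left hy
    have h1 := pow_ne_zero k u.isOver.natCast_ne_zero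
    refine ⟨hy0, hyo, ?_, by rw [hf]; exact neg_ne_zero.mpr (mul_ne_zero h1 (pow_ne_zero j hy0))⟩
    rw [hf, u.isOver.ord_neg, u.isOver.ord_mul h1 (pow_ne_zero j hy0), u.isOver.ord_pow hy0,
      u.isOver.ord_pow u.isOver.natCast_ne_zero, u.isOver.ord_p, hyo, hnkj]
    ring
  obtain ⟨hx0, hxo, hxf, hxf0⟩ := hroot hx
  have hxA : x ∈ A := (u.isOver.mem_iff hx0).mpr (by rw [hxo]; positivity)
  obtain ⟨φ, hφ, hφfix⟩ := u.exists_homMod hxA
    (Or.inr (hxf.symm ▸ hn))
  -- the stabiliser of `x` is `N`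
  set I := A.inertiaSubgroupIn ℚ
  set H : Subgroup ↥I := (MulAction.stabilizer G_ℚ x).subgroupOf I with hH
  have hmemH : ∀ σ : ↥I, σ ∈ H ↔ (σ : G_ℚ) x = x := fun σ => Subgroup.mem_subgroupOf
  have hHN : H ≤ N.subgroupOf I := fun σ hσ =>
    Subgroup.mem_subgroupOf.mpr (hb φ hφ σ σ.2 fun y hy => by
      rw [hφfix σ σ.2 ((hmemH σ).mp hσ) y hy, sub_self]; exact near_zero _)
  have hS : ∀ q : ↥I ⧸ H, (q.out : G_ℚ) x ∈ (u.perturb k j).roots.toFinset := fun q => by
    rw [Multiset.mem_toFinset, Polynomial.mem_roots (u.perturb_monic hj).ne_zero, IsRoot,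
      ← (u.isFixedPoly_perturb k j).eval_apply q.out.2, IsRoot.def.mp hx, map_zero]
  have hinj : Function.Injective
      fun q : ↥I ⧸ H => (⟨_, hS q⟩ : (u.perturb k j).roots.toFinset) := fun a b hab => by
    have h1 : (a.out : G_ℚ) x = (b.out : G_ℚ) x := congrArg Subtype.val hab
    rw [← QuotientGroup.out_eq' a, ← QuotientGroup.out_eq' b]
    refine QuotientGroup.eq.mpr ((hmemH _).mpr ?_)
    rw [Subgroup.coe_mul, Subgroup.coe_inv, AlgEquiv.mul_apply, ← h1, ← AlgEquiv.mul_apply,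
      inv_mul_cancel, AlgEquiv.one_apply]
  have hfinH : Finite (↥I ⧸ H) := Finite.of_injective _ hinj
  have hidx : H.index ≤ u.e := by
    have := Nat.card_le_card_of_injective _ hinj
    rw [Nat.card_eq_fintype_card (α := (u.perturb k j).roots.toFinset), Fintype.card_coe] at this
    rw [Subgroup.index_eq_card]
    exact this.trans ((Multiset.toFinset_card_le _).trans
      ((card_roots' _).trans_eq (u.natDegree_perturb hj)))
  have hidx0 : H.index ≠ 0 := Subgroup.index_ne_zero_of_finite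
  have hmul := Subgroup.relIndex_mul_index hHN
  rw [u.index_eq] at hmul
  have hrel : H.relIndex (N.subgroupOf I) = 1 := by
    have : H.relIndex (N.subgroupOf I) * u.e ≤ 1 * u.e := by rw [hmul, one_mul]; exact hidx
    have h1 : H.relIndex (N.subgroupOf I) ≠ 0 := fun e => hidx0 (by rw [← hmul, e, zero_mul])
    have := Nat.le_of_mul_le_mul_right this u.e_pos
    omega
  have hfix : ∀ σ ∈ N, σ x = x := fun σ hσ =>
    (hmemH ⟨σ, u.le hσ⟩).mp (Subgroup.relIndex_eq_one.mp hrel (Subgroup.mem_subgroupOf.mpr hσ))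
  -- move the closest root to `π`
  obtain ⟨r₀, hr₀, hmax⟩ := u.roots.exists_max_image (fun r => ord A p (x - r))
    ⟨u.π, u.π_mem_roots⟩
  obtain ⟨σ, hσ, rfl⟩ := u.mem_roots.mp hr₀
  have hσ' : σ⁻¹ ∈ I := inv_mem hσ
  have hy : (u.perturb k j).eval (σ⁻¹ x) = 0 := by
    rw [← (u.isFixedPoly_perturb k j).eval_apply hσ', IsRoot.def.mp hx, map_zero]
  obtain ⟨hy0, hyo, hyf, hyf0⟩ := hroot hy
  have hyne : ∀ r ∈ u.roots, σ⁻¹ x - r ≠ 0 := fun r hr e => hyf0 (by
    rw [poly, eval_prod]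
    exact Finset.prod_eq_zero hr (by simpa using e))
  refine ⟨σ⁻¹ x, fun τ hτ => ?_, hyne, ?_, fun r hr => ?_⟩
  · have := hfix _ (u.normal σ hσ τ hτ)
    calc τ (σ⁻¹ x) = σ⁻¹ ((σ * τ * σ⁻¹) x) := by
          rw [← AlgEquiv.mul_apply, ← AlgEquiv.mul_apply, mul_assoc σ, inv_mul_cancel_left]
      _ = σ⁻¹ x := by rw [this]
  · rw [← hyf, poly, eval_prod, u.isOver.ord_prod _ _ fun r hr => by simpa using hyne r hr]
    exact Finset.sum_congr rfl fun r _ => by simp
  · have hd := MultRed.inertia_mem_decomposition hσ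
    rw [← u.isOver.ord_apply hd (σ⁻¹ x - r), ← u.isOver.ord_apply hd (σ⁻¹ x - u.π), map_sub,
      map_sub, ← AlgEquiv.mul_apply, mul_inv_cancel, AlgEquiv.one_apply]
    exact hmax _ (u.apply_mem_roots hσ hr)

/-- **Fontaine's converse**: the bound on the conjugates of a uniformiser. -/
theorem sum_le_of_hasBound (hγ : 1 < γ) (hb : HasBound A p N γ) {x₀ : Ω} (hx₀ : x₀ ∈ u.roots)
    (hne : x₀ ≠ u.π) :
    (∑ r ∈ u.roots.erase u.π, ord A p (r - u.π)) + ord A p (x₀ - u.π) ≤ γ + 2 / u.e := by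
  classical
  by_contra hgt
  push Not at hgt
  set R := u.roots.erase u.π with hR
  obtain ⟨r₁, hr₁, hmax⟩ := R.exists_max_image (fun r => ord A p (r - u.π))
    ⟨x₀, Finset.mem_erase.mpr ⟨hne, hx₀⟩⟩
  have hx₀le := hmax x₀ (Finset.mem_erase.mpr ⟨hne, hx₀⟩)
  set i := fun r => ord A p (r - u.π) with hi
  set M := i r₁ with hM
  set F : ℚ → ℚ := fun t => t + ∑ r ∈ R, min t (i r) with hF
  have heQ : (0 : ℚ) < u.e := Nat.cast_pos.mpr u.e_pos
  have key : ∀ n : ℕ, γ ≤ (n : ℚ) / u.e → (n : ℚ) / u.e < (∑ r ∈ R, i r) + M →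
      ∃ t : ℚ, (∃ z : ℤ, t = z / u.e) ∧ t < M ∧ F t = n / u.e := by
    intro n hn hlt
    obtain ⟨x, hfix, hne', hsum, hmx⟩ := u.exists_fixed_root hγ hb hn
    set t := ord A p (x - u.π) with ht
    have hz := u.exists_ord_eq_div (y := x - u.π)
      (fun σ hσ => by rw [map_sub, hfix σ hσ, u.π_fix σ hσ]) (hne' _ u.π_mem_roots)
    have hval : ∀ r ∈ R, ord A p (x - r) = min t (i r) := by
      intro r hr
      obtain ⟨hrπ, hr'⟩ := Finset.mem_erase.mp hr
      have e : x - r = (x - u.π) + -(r - u.π) := by ring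
      have h1 : ord A p (x - r) ≤ t := hmx r hr'
      rcases lt_trichotomy (i r) t with hlt' | heq | hgt'
      · rw [min_eq_right hlt'.le, e, add_comm]
        rw [(u.isOver.ord_add_eq (neg_ne_zero.mpr (sub_ne_zero.mpr hrπ)) (γ := t) (Or.inr le_rfl)
          (by rwa [u.isOver.ord_neg])).2, u.isOver.ord_neg]
      · rw [heq, min_self]
        refine le_antisymm h1 ?_
        have hsum0 : x - u.π + -(r - u.π) ≠ 0 := e ▸ hne' r hr'
        have := u.isOver.min_le_ord_add (hne' _ u.π_mem_roots)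
          (neg_ne_zero.mpr (sub_ne_zero.mpr hrπ)) hsum0
        rw [← e, u.isOver.ord_neg] at this
        simpa [heq, ← ht, ← hi] using (show min t (i r) ≤ ord A p (x - r) from this)
      · rw [min_eq_left hgt'.le, e]
        exact (u.isOver.ord_add_eq (hne' _ u.π_mem_roots) (γ := i r)
          (u.isOver.near_neg (Or.inr le_rfl)) hgt').2
    have hFt : F t = n / u.e := by
      rw [← hsum, ← Finset.add_sum_erase _ _ u.π_mem_roots]
      exact congrArg (t + ·) (Finset.sum_congr rfl fun r hr => (hval r hr).symm)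
    refine ⟨t, hz, ?_, hFt⟩
    by_contra hge
    push Not at hge
    have hle : ∑ r ∈ R, i r ≤ ∑ r ∈ R, min t (i r) :=
      Finset.sum_le_sum fun r hr => le_min ((hmax r hr).trans hge) le_rfl
    have := hFt
    simp only [hF] at this
    linarith
  set n₀ := ⌈γ * u.e⌉₊ with hn₀
  have h1 : γ ≤ (n₀ : ℚ) / u.e := (le_div_iff₀ heQ).mpr (Nat.le_ceil _)
  have h2 : (n₀ : ℚ) / u.e < γ + 1 / u.e := by
    rw [div_lt_iff₀ heQ, add_mul, div_mul_cancel₀ _ heQ.ne']
    exact Nat.ceil_lt_add_one (by positivity)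
  have h3 : ((n₀ + 1 : ℕ) : ℚ) / u.e = (n₀ : ℚ) / u.e + 1 / u.e := by push_cast; ring
  have hU : γ + 2 / u.e < (∑ r ∈ R, i r) + M := lt_of_lt_of_le hgt (by
    simp only [hi, hM] at hx₀le ⊢; linarith)
  have h4 : (2 : ℚ) / u.e = 1 / u.e + 1 / u.e := by ring
  have h5 : (0 : ℚ) < 1 / u.e := div_pos one_pos heQ
  obtain ⟨t₁, ⟨z₁, hz₁⟩, ht₁, hF₁⟩ := key n₀ h1 (by linarith)
  obtain ⟨t₂, ⟨z₂, hz₂⟩, ht₂, hF₂⟩ := key (n₀ + 1) (by linarith) (by linarith)
  have hlt : t₁ < t₂ := by
    by_contra hle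
    push Not at hle
    have : ∑ r ∈ R, min t₂ (i r) ≤ ∑ r ∈ R, min t₁ (i r) :=
      Finset.sum_le_sum fun r _ => min_le_min_right _ hle
    simp only [hF] at hF₁ hF₂
    linarith
  have hstep : t₁ + 1 / u.e ≤ t₂ := by
    rw [hz₁, hz₂] at hlt ⊢
    have : z₁ + 1 ≤ z₂ := Int.add_one_le_iff.mpr
      (by exact_mod_cast (div_lt_div_iff_of_pos_right heQ).mp hlt)
    rw [← add_div]
    exact div_le_div_of_nonneg_right (by exact_mod_cast this) heQ.le
  have hdiff : t₂ - t₁ ≤ ∑ r ∈ R, (min t₂ (i r) - min t₁ (i r)) := by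
    refine le_trans ?_ (Finset.single_le_sum
      (fun r _ => sub_nonneg.mpr (min_le_min_right _ hlt.le)) hr₁)
    rw [← hM, min_eq_left ht₂.le, min_eq_left ht₁.le]
  rw [Finset.sum_sub_distrib] at hdiff
  simp only [hF] at hF₁ hF₂
  linarith

/-- The bound at the limit `B` of the exponents. -/
theorem sum_le_of_forall_hasBound {B : ℚ} (hB : 1 ≤ B)
    (hb : ∀ γ : ℚ, B < γ → HasBound A p N γ) {x₀ : Ω} (hx₀ : x₀ ∈ u.roots) (hne : x₀ ≠ u.π) :
    (∑ r ∈ u.roots.erase u.π, ord A p (r - u.π)) + ord A p (x₀ - u.π) ≤ B + 2 / u.e := by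
  refine le_of_forall_pos_le_add fun ε hε => ?_
  have := u.sum_le_of_hasBound (γ := B + ε) (by linarith) (hb _ (by linarith)) hx₀ hne
  linarith

end Unif

end Fermat.Agent.FlatJ0
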