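import Fermat.Agent.FlatJ0.Ramif.Basic

/-!
# Herbrand's lemma for a quotient level

For `N ≤ N'` with uniformisers `π`, `π'`, the value `ord (σ π' - π')` is the sum of the values
`ord (x - π)` over the conjugates `x` of `π` lying above `σ π'`; bounds on the sum of all values
pass to the quotient.
-/

noncomputable section

open Polynomial

namespace Fermat.Agent.FlatJ0

local notation "Ω" => AlgebraicClosure ℚ
local notation "G_ℚ" => (AlgebraicClosure ℚ) ≃ₐ[ℚ] (AlgebraicClosure ℚ)

variable {A : ValuationSubring Ω} {p : ℕ}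

namespace Unif

variable {N N' : Subgroup G_ℚ} (u : Unif A p N) (u' : Unif A p N') (hNN : N ≤ N')
include hNN

/-- The polynomial expressing the uniformiser of the quotient level. -/
def projPoly : Polynomial Ω :=
  (u.exists_repr fun σ hσ => u'.π_fix σ (hNN hσ)).choose

lemma projPoly_spec : IsFixedPoly A (projPoly u u' hNN) ∧ (projPoly u u' hNN).degree < u.e ∧
    ∀ σ ∈ A.inertiaSubgroupIn ℚ, (projPoly u u' hNN).eval (σ u.π) = σ u'.π :=
  (u.exists_repr fun σ hσ => u'.π_fix σ (hNN hσ)).choose_spec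

/-- The projection of conjugates. -/
def proj (x : Ω) : Ω := (projPoly u u' hNN).eval x

lemma proj_apply {σ : G_ℚ} (hσ : σ ∈ A.inertiaSubgroupIn ℚ) :
    proj u u' hNN (σ u.π) = σ u'.π :=
  (projPoly_spec u u' hNN).2.2 σ hσ

lemma proj_π : proj u u' hNN u.π = u'.π := proj_apply u u' hNN (one_mem _)

lemma proj_comm {σ : G_ℚ} (hσ : σ ∈ A.inertiaSubgroupIn ℚ) (x : Ω) :
    proj u u' hNN (σ x) = σ (proj u u' hNN x) :=
  ((projPoly_spec u u' hNN).1.eval_apply hσ x).symm

open Classical in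
/-- The conjugates of `π` above `y`. -/
def fibre (y : Ω) : Finset Ω := u.roots.filter fun x => proj u u' hNN x = y

lemma mem_fibre {x y : Ω} : x ∈ fibre u u' hNN y ↔ x ∈ u.roots ∧ proj u u' hNN x = y := by
  classical
  simp [fibre]

lemma π_mem_fibre : u.π ∈ fibre u u' hNN u'.π :=
  (mem_fibre u u' hNN).mpr ⟨u.π_mem_roots, proj_π u u' hNN⟩

lemma image_fibre [DecidableEq Ω] {σ : G_ℚ} (hσ : σ ∈ A.inertiaSubgroupIn ℚ) (y : Ω) :
    (fibre u u' hNN y).image σ = fibre u u' hNN (σ y) := by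
  ext x
  rw [Finset.mem_image, mem_fibre]
  constructor
  · rintro ⟨z, hz, rfl⟩
    obtain ⟨hz, hzy⟩ := (mem_fibre u u' hNN).mp hz
    exact ⟨u.apply_mem_roots hσ hz, by rw [proj_comm u u' hNN hσ, hzy]⟩
  · rintro ⟨hx, hxy⟩
    refine ⟨σ⁻¹ x, (mem_fibre u u' hNN).mpr ⟨u.apply_mem_roots (inv_mem hσ) hx, ?_⟩, ?_⟩
    · rw [proj_comm u u' hNN (inv_mem hσ), hxy, ← AlgEquiv.mul_apply, inv_mul_cancel,
        AlgEquiv.one_apply]
    · rw [← AlgEquiv.mul_apply, mul_inv_cancel, AlgEquiv.one_apply]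

lemma sum_fibre_apply {M : Type*} [AddCommMonoid M] (f : Ω → M) {σ : G_ℚ}
    (hσ : σ ∈ A.inertiaSubgroupIn ℚ) (y : Ω) :
    ∑ x ∈ fibre u u' hNN (σ y), f x = ∑ x ∈ fibre u u' hNN y, f (σ x) := by
  classical
  rw [← image_fibre u u' hNN hσ, Finset.sum_image fun a _ b _ e => σ.injective e]

lemma card_fibre {y : Ω} (hy : y ∈ u'.roots) :
    (fibre u u' hNN y).card = (fibre u u' hNN u'.π).card := by
  classical
  obtain ⟨σ, hσ, rfl⟩ := u'.mem_roots.mp hy
  rw [← image_fibre u u' hNN hσ, Finset.card_image_of_injective _ σ.injective]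

lemma proj_mem {x : Ω} (hx : x ∈ u.roots) : proj u u' hNN x ∈ u'.roots := by
  obtain ⟨σ, hσ, rfl⟩ := u.mem_roots.mp hx
  exact u'.mem_roots.mpr ⟨σ, hσ, (proj_apply u u' hNN hσ).symm⟩

lemma e_eq_mul : u.e = u'.e * (fibre u u' hNN u'.π).card := by
  classical
  rw [← u.card_roots, ← u'.card_roots,
    Finset.card_eq_sum_card_fiberwise fun x hx => proj_mem u u' hNN hx,
    Finset.sum_const_nat fun y hy => (show (u.roots.filter fun x => proj u u' hNN x = y).card =
      (fibre u u' hNN u'.π).card by simpa [fibre] using card_fibre u u' hNN hy)]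

/-- **Herbrand's lemma**: the value at the quotient is the sum over the fibre. -/
theorem ord_sub_eq_sum_fibre {y : Ω} (hy : y ∈ u'.roots) (hne : y ≠ u'.π) :
    ord A p (y - u'.π) = ∑ x ∈ fibre u u' hNN y, ord A p (x - u.π) := by
  classical
  have h := u.isOver
  obtain ⟨σ, hσ, rfl⟩ := u'.mem_roots.mp hy
  set S := fibre u u' hNN u'.π with hS
  set g : Polynomial Ω := ∏ x ∈ S, (X - C x) with hg
  have hgm : g.Monic := monic_prod_of_monic _ _ fun _ _ => monic_X_sub_C _
  have hSA : ∀ x ∈ S, x ∈ A := fun x hx => (u.root_mem ((mem_fibre u u' hNN).mp hx).1).1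
  have hgσ : polyApply σ g = ∏ x ∈ fibre u u' hNN (σ u'.π), (X - C x) := by
    rw [hg, map_prod, ← image_fibre u u' hNN hσ,
      Finset.prod_image fun a _ b _ e => σ.injective e]
    simp only [map_sub, polyApply_X, polyApply_C]
    rfl
  have hπnot : ∀ x ∈ fibre u u' hNN (σ u'.π), u.π - x ≠ 0 := fun x hx e => hne (by
    rw [← sub_eq_zero.mp e] at hx
    rw [← ((mem_fibre u u' hNN).mp hx).2, proj_π])
  have hev0 : (polyApply σ g).eval u.π ≠ 0 := by
    rw [hgσ, eval_prod]
    exact Finset.prod_ne_zero_iff.mpr fun x hx => by simpa using hπnot x hx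
  have hev : ord A p ((polyApply σ g).eval u.π) =
      ∑ x ∈ fibre u u' hNN (σ u'.π), ord A p (x - u.π) := by
    rw [hgσ, eval_prod, h.ord_prod _ _ fun x hx => by simpa using hπnot x hx]
    refine Finset.sum_congr rfl fun x _ => ?_
    rw [eval_sub, eval_X, eval_C, ← neg_sub, h.ord_neg]
  rw [← hev]
  have hy0 : σ u'.π - u'.π ≠ 0 := sub_ne_zero.mpr hne
  refine le_antisymm ?_ ?_
  · -- the coefficients of `g` move by at least `ord (σ π' - π')`
    have hgfix : ∀ i, g.coeff i ∈ fixRing A N' := by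
      intro i
      refine ⟨?_, fun τ hτ => ?_⟩
      · have : g ∈ Polynomial.lifts A.subtype := by
          refine prod_mem fun x hx => ?_
          rw [sub_eq_add_neg, ← map_neg C]
          exact add_mem (X_mem_lifts _) (C'_mem_lifts ⟨⟨_, neg_mem (hSA x hx)⟩, rfl⟩)
        obtain ⟨a, ha⟩ := (lifts_iff_coeff_lifts _).mp this i
        exact ha ▸ a.2
      · have he : polyApply τ g = g := by
          have e : S.image τ = S := by rw [hS, image_fibre u u' hNN (u'.le hτ), u'.π_fix τ hτ]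
          rw [hg, map_prod]
          conv_rhs => rw [← e, Finset.prod_image fun a _ b _ e => τ.injective e]
          simp only [map_sub, polyApply_X, polyApply_C]
        rw [← coeff_polyApply, he]
    have hg0 : g.eval u.π = 0 := by
      rw [hg, eval_prod]
      exact Finset.prod_eq_zero (π_mem_fibre u u' hNN) (by simp)
    have hnear : Near A p (ord A p (σ u'.π - u'.π)) ((polyApply σ g).eval u.π) := by
      have e : (polyApply σ g).eval u.π = (polyApply σ g - g).eval u.π := by
        rw [eval_sub, hg0, sub_zero]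
      rw [e, eval_eq_sum_range]
      refine h.near_sum _ _ fun i _ => h.near_mul_right ?_ (pow_mem (u.root_mem u.π_mem_roots).1 i)
      rw [coeff_sub, coeff_polyApply]
      exact u'.near_apply_sub hσ (Or.inr le_rfl) (hgfix i)
    exact hnear.resolve_left hev0
  · -- `g` divides `P - π'`
    obtain ⟨hP, hPd, hPv⟩ := projPoly_spec u u' hNN
    set P := projPoly u u' hNN
    set F := P - C u'.π with hF
    have hrem : F %ₘ g = 0 := by
      refine Polynomial.eq_of_degrees_lt_of_eval_finset_eq S ?_ ?_ fun x hx => ?_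
      · refine (degree_modByMonic_lt F hgm).trans_eq ?_
        rw [degree_eq_natDegree hgm.ne_zero, hg,
          natDegree_prod_of_monic _ _ fun _ _ => monic_X_sub_C _]
        simp
      · rw [degree_zero]; exact WithBot.bot_lt_coe _
      · have hx0 : g.eval x = 0 := by
          rw [hg, eval_prod]; exact Finset.prod_eq_zero hx (by simp)
        have hFx : F.eval x = 0 := by
          rw [hF, eval_sub, eval_C, sub_eq_zero]; exact ((mem_fibre u u' hNN).mp hx).2
        have := congrArg (Polynomial.eval x) (modByMonic_add_div F g)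
        rw [eval_add, eval_mul, hx0, zero_mul, add_zero, hFx] at this
        rw [this, eval_zero]
    have hfac : F = g * (F /ₘ g) := by
      conv_lhs => rw [← modByMonic_add_div F g, hrem, zero_add]
    have hπ' : P.eval u.π = u'.π := hPv 1 (one_mem _)
    have hFA : ∀ i, F.coeff i ∈ A := fun i => by
      rw [hF, coeff_sub, coeff_C]
      refine sub_mem (u.coeff_mem hP hPd (hπ'.symm ▸ (u'.root_mem u'.π_mem_roots).1) i) ?_
      split_ifs
      exacts [(u'.root_mem u'.π_mem_roots).1, zero_mem _]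
    have h2 := congrArg (fun F => (polyApply σ F).eval u.π) hfac
    simp only [hF, map_sub, map_mul, polyApply_C, hP.polyApply_eq hσ, eval_sub, eval_C, eval_mul,
      hπ'] at h2
    have hq : (polyApply σ (F /ₘ g)).eval u.π ∈ A := by
      rw [eval_eq_sum_range]
      refine sum_mem fun i _ => mul_mem ?_ (pow_mem (u.root_mem u.π_mem_roots).1 i)
      rw [coeff_polyApply]
      have hmem : (F /ₘ g).coeff i ∈ A := coeff_divByMonic_mem hFA S hSA i
      exact (A.valuation_le_one_iff _).mp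
        (by rw [IsOver.val_inertia hσ]; exact (A.valuation_le_one_iff _).mpr hmem)
    have := h.near_mul_right (x := (polyApply σ g).eval u.π)
      (γ := ord A p ((polyApply σ g).eval u.π)) (Or.inr le_rfl) hq
    rw [← h2, ← neg_sub] at this
    have := this.resolve_left (neg_ne_zero.mpr hy0)
    rwa [h.ord_neg] at this

/-- A bound on the sum of all values passes to the quotient. -/
theorem sum_le_quotient {B : ℚ}
    (hB : ∀ x₀ ∈ u.roots, x₀ ≠ u.π →
      (∑ r ∈ u.roots.erase u.π, ord A p (r - u.π)) + ord A p (x₀ - u.π) ≤ B + 2 / u.e)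
    {y₀ : Ω} (hy₀ : y₀ ∈ u'.roots) (hne : y₀ ≠ u'.π) :
    (∑ y ∈ u'.roots.erase u'.π, ord A p (y - u'.π)) + ord A p (y₀ - u'.π) ≤ B + 2 / u'.e := by
  classical
  have h := u.isOver
  set d := fun x => ord A p (x - u.π) with hd
  set S := fibre u u' hNN u'.π with hS
  -- the largest value above `y₀`
  have hne' : (fibre u u' hNN y₀).Nonempty := by
    obtain ⟨σ, hσ, rfl⟩ := u'.mem_roots.mp hy₀
    exact ⟨σ u.π, (mem_fibre u u' hNN).mpr
      ⟨u.mem_roots.mpr ⟨σ, hσ, rfl⟩, proj_apply u u' hNN hσ⟩⟩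
  obtain ⟨x₀, hx₀, hmax⟩ := (fibre u u' hNN y₀).exists_max_image d hne'
  obtain ⟨hx₀R, hx₀y⟩ := (mem_fibre u u' hNN).mp hx₀
  obtain ⟨σ, hσ, rfl⟩ := u.mem_roots.mp hx₀R
  have hy₀σ : σ u'.π = y₀ := by rw [← hx₀y, proj_apply u u' hNN hσ]
  have hx₀π : σ u.π ≠ u.π := fun e => hne (by rw [← hx₀y, e, proj_π])
  have hπS : u.π ∈ S := π_mem_fibre u u' hNN
  have hy_sum : ord A p (y₀ - u'.π) ≤ d (σ u.π) + ∑ x ∈ S.erase u.π, d x := by
    rw [ord_sub_eq_sum_fibre u u' hNN hy₀ hne, ← hy₀σ, sum_fibre_apply u u' hNN _ hσ,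
      ← Finset.add_sum_erase _ _ hπS]
    refine add_le_add le_rfl (Finset.sum_le_sum fun x hx => ?_)
    obtain ⟨hxπ, hxS⟩ := Finset.mem_erase.mp hx
    have hmem : σ x ∈ fibre u u' hNN y₀ := by
      rw [← hy₀σ, ← image_fibre u u' hNN hσ]
      exact Finset.mem_image_of_mem _ hxS
    have hle : d (σ x) ≤ d (σ u.π) := hmax _ hmem
    have hσx : σ x - u.π ≠ 0 := fun e => hne (by
      rw [sub_eq_zero.mp e] at hmem
      rw [← ((mem_fibre u u' hNN).mp hmem).2, proj_π])
    show d (σ x) ≤ d x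
    simp only [hd]
    rw [← h.ord_apply (MultRed.inertia_mem_decomposition hσ) (x - u.π), map_sub,
      ← sub_sub_sub_cancel_right (σ x) (σ u.π) u.π]
    have h1 : σ x - u.π - (σ u.π - u.π) ≠ 0 := by
      rw [sub_sub_sub_cancel_right, ← map_sub]
      simpa [sub_eq_zero] using hxπ
    have h2 := h.min_le_ord_add hσx (neg_ne_zero.mpr (sub_ne_zero.mpr hx₀π))
      (by rwa [← sub_eq_add_neg])
    rw [h.ord_neg, ← sub_eq_add_neg] at h2
    exact le_trans (le_min le_rfl hle) h2
  have hsplit : (∑ y ∈ u'.roots.erase u'.π, ord A p (y - u'.π)) + ∑ x ∈ S.erase u.π, d x =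
      ∑ r ∈ u.roots.erase u.π, d r := by
    rw [Finset.sum_congr rfl (fun y hy => ord_sub_eq_sum_fibre u u' hNN
      (Finset.mem_of_mem_erase hy) (Finset.ne_of_mem_erase hy))]
    have h1 := Finset.sum_fiberwise_of_maps_to (s := u.roots) (t := u'.roots)
      (g := proj u u' hNN) (fun x hx => proj_mem u u' hNN hx) d
    rw [← Finset.add_sum_erase _ _ u'.π_mem_roots, ← Finset.add_sum_erase _ d u.π_mem_roots] at h1
    have h2 : ∀ y, u.roots.filter (fun x => proj u u' hNN x = y) = fibre u u' hNN y := fun y => by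
      simp only [fibre]
    simp only [h2] at h1
    rw [← hS, ← Finset.add_sum_erase _ _ hπS] at h1
    linarith
  have hb := hB _ hx₀R hx₀π
  have he : (u'.e : ℚ) ≤ u.e := by
    rw [e_eq_mul u u' hNN]
    push_cast
    exact le_mul_of_one_le_right (Nat.cast_nonneg _)
      (by exact_mod_cast Finset.card_pos.mpr ⟨_, hπS⟩)
  have h2 : (2 : ℚ) / u.e ≤ 2 / u'.e :=
    div_le_div_of_nonneg_left (by norm_num) (Nat.cast_pos.mpr u'.e_pos) he
  change (∑ r ∈ u.roots.erase u.π, d r) + d (σ u.π) ≤ B + 2 / u.e at hb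
  linarith

end Unif

end Fermat.Agent.FlatJ0
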