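import Fermat.Agent.FlatJ0.Cond

/-!
# A uniformiser of the field fixed by an open subgroup of inertia

If `N` is a subgroup of inertia containing the inertia elements fixing some finite extension, then
some algebraic number fixed by `N` has `ord = 1 / [I : N]`.
-/

open NumberField IsDedekindDomain
open scoped Pointwise NumberField

noncomputable section

namespace Fermat.Agent.FlatJ0

open Fermat.Agent.FreyReducible

local notation "Ω" => AlgebraicClosure ℚ
local notation "G_ℚ" => (AlgebraicClosure ℚ) ≃ₐ[ℚ] (AlgebraicClosure ℚ)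

local instance isAlgebraicQbar_fu : Algebra.IsAlgebraic ℚ (AlgebraicClosure ℚ) :=
  AlgebraicClosure.isAlgebraic ℚ
local instance isGaloisQbar_fu : IsGalois ℚ (AlgebraicClosure ℚ) :=
  have : IsAlgClosure ℚ (AlgebraicClosure ℚ) := ⟨inferInstance, inferInstance⟩
  IsAlgClosure.isGalois ℚ (AlgebraicClosure ℚ)

variable {A : ValuationSubring Ω} {p : ℕ}

/-- The inertia group of a finite Galois level is the image of that of `ℚ̄`. -/
lemma map_inertia_eq (h : IsOver A p) (F : IntermediateField ℚ Ω) [FiniteDimensional ℚ F]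
    [IsGalois ℚ F] :
    (A.inertiaSubgroupIn ℚ).map (AlgEquiv.restrictNormalHom (F := ℚ) (K₁ := Ω) F) =
      ((placeIdeal A).under (𝓞 F)).inertia (F ≃ₐ[ℚ] F) := by
  ext g
  constructor
  · rintro ⟨σ, hσ, rfl⟩
    intro b
    change AlgEquiv.restrictNormalHom F σ • b - b ∈ (placeIdeal A).under (𝓞 F)
    rw [Ideal.mem_comap, mem_placeIdeal]
    have h2 := ((FreyReducible.mem_inertiaSubgroupIn_iff A σ).mp hσ).2 ((b : F) : Ω)
      (mem_of_isIntegral_int A (b.isIntegral_coe.map (F.val.restrictScalars ℤ)))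
    convert h2 using 1
    show (((AlgEquiv.restrictNormalHom F σ) (b : F) : F) : Ω) - ((b : F) : Ω) = _
    rw [show (((AlgEquiv.restrictNormalHom F σ) (b : F) : F) : Ω) = σ ((b : F) : Ω) from
      AlgEquiv.restrictNormal_commutes σ F (b : F)]
  · intro hg
    obtain ⟨σ, hσ, hσg⟩ := exists_mem_inertiaSubgroupIn_extending h.prime.ne_zero h.liesOver F g
      fun b => by
        have h := hg b
        change g • b - b ∈ (placeIdeal A).under (𝓞 F) at h
        exact mem_placeIdeal.mp (Ideal.mem_comap.mp h)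
    refine ⟨σ, hσ, AlgEquiv.ext fun x => Subtype.ext ?_⟩
    exact (AlgEquiv.restrictNormal_commutes σ F x).trans (hσg x)

/-- A uniformiser of a finite Galois level: `ord = 1 / |inertia|`. -/
lemma exists_uniformiser_level (h : IsOver A p) (F : IntermediateField ℚ Ω)
    [FiniteDimensional ℚ F] [IsGalois ℚ F] :
    ∃ π : F, (π : Ω) ≠ 0 ∧
      ord A p (π : Ω) = 1 / (Nat.card ↥(((placeIdeal A).under (𝓞 F)).inertia (F ≃ₐ[ℚ] F)) : ℚ) := by
  have : NumberField F := { to_charZero := inferInstance, to_finiteDimensional := inferInstance }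
  set P : Ideal (𝓞 F) := (placeIdeal A).under (𝓞 F)
  have hqP : (p : 𝓞 F) ∈ P := by
    simp only [P, Ideal.mem_comap, map_natCast, mem_placeIdeal]
    exact h.liesOver
  have hmax : (Ideal.span {(p : ℤ)}).IsMaximal :=
    PrincipalIdealRing.isMaximal_of_irreducible (Nat.prime_iff_prime_int.mp h.prime).irreducible
  have hPu : P.under ℤ = Ideal.span {(p : ℤ)} := by
    refine (Ideal.IsMaximal.eq_of_le hmax (Ideal.IsPrime.ne_top inferInstance) ?_).symm
    rw [Ideal.span_le, Set.singleton_subset_iff]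
    show algebraMap ℤ (𝓞 F) (p : ℤ) ∈ P
    simpa using hqP
  have hover : P.LiesOver (Ideal.span {(p : ℤ)}) := ⟨hPu.symm⟩
  have hp0 : (p : 𝓞 F) ≠ 0 := Nat.cast_ne_zero.mpr h.prime.ne_zero
  have : IsGaloisGroup (F ≃ₐ[ℚ] F) ℤ (𝓞 F) :=
    IsGaloisGroup.of_isFractionRing (F ≃ₐ[ℚ] F) ℤ (𝓞 F) ℚ F
  have : Finite (ℤ ⧸ Ideal.span {(p : ℤ)}) :=
    have : NeZero p := ⟨h.prime.ne_zero⟩
    Finite.of_equiv _ (Int.quotientSpanNatEquivZMod p).symm.toEquiv
  have : Finite (Ideal.span {(p : ℤ)}).ResidueField :=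
    Finite.of_surjective _ (Ideal.bijective_algebraMap_quotient_residueField _).2
  have hP0 : P ≠ ⊥ := fun e => hp0 (by simpa [e] using hqP)
  let v : HeightOneSpectrum (𝓞 F) := ⟨P, inferInstance, hP0⟩
  have hcard := Ideal.card_inertia_eq_ramificationIdxIn (G := F ≃ₐ[ℚ] F)
    (Ideal.span {(p : ℤ)}) P
  rw [Ideal.ramificationIdxIn_eq_ramificationIdx _ P (F ≃ₐ[ℚ] F)] at hcard
  set e := P.ramificationIdx ℤ
  rw [hcard]
  have hvp : v.intValuation (p : 𝓞 F) = WithZero.exp (-(e : ℤ)) := by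
    have hm := Ideal.IsDedekindDomain.ramificationIdx_eq_multiplicity (R := ℤ)
      (Ideal.span {(p : ℤ)}) P (by
        rw [Ideal.map_span, Set.image_singleton, map_natCast, Ne, Ideal.span_singleton_eq_bot]
        exact hp0)
    rw [Ideal.map_span, Set.image_singleton, map_natCast] at hm
    rw [v.intValuation_eq_exp_neg_multiplicity hp0, show e = _ from hm]
  obtain ⟨π, hπ⟩ := v.intValuation_exists_uniformizer
  have hint : ∀ b : 𝓞 F, ((b : F) : Ω) ∈ A := fun b =>
    mem_of_isIntegral_int A (b.isIntegral_coe.map (F.val.restrictScalars ℤ))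
  have hle : ∀ z : F, v.valuation F z ≤ 1 → A.valuation (z : Ω) ≤ 1 := by
    intro z hz
    obtain ⟨n, ⟨d, hd⟩, hnd⟩ := v.exists_primeCompl_mul_eq_of_integer z hz
    have h' : (z : Ω) * ((d : F) : Ω) = ((n : F) : Ω) := congrArg (fun t : F => (t : Ω)) hnd
    have hd1 : A.valuation ((d : F) : Ω) = 1 := by
      refine le_antisymm ((A.valuation_le_one_iff _).mpr (hint d)) (not_lt.mp fun hh => hd ?_)
      show d ∈ P
      rw [Ideal.mem_comap, mem_placeIdeal]
      exact hh
    have := congrArg A.valuation h'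
    rw [map_mul, hd1, mul_one] at this
    rw [this]
    exact (A.valuation_le_one_iff _).mpr (hint n)
  have hπ0 : (π : F) ≠ 0 := by
    intro e0
    have : π = 0 := RingOfIntegers.ext e0
    rw [this, map_zero] at hπ
    exact WithZero.zero_ne_coe hπ
  have hπΩ : ((π : F) : Ω) ≠ 0 := by simpa using hπ0
  refine ⟨(π : F), hπΩ, ?_⟩
  set y : F := (π : F) ^ e / (p : F) with hy
  have hpF : (p : F) ≠ 0 := Nat.cast_ne_zero.mpr h.prime.ne_zero
  have hvy : v.valuation F y = 1 := by
    rw [hy, map_div₀, map_pow, ← map_natCast (algebraMap (𝓞 F) F) p,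
      show (π : F) = algebraMap (𝓞 F) F π from rfl, v.valuation_of_algebraMap,
      v.valuation_of_algebraMap, hπ, hvp, ← WithZero.exp_nsmul]
    simp
  have hy0 : (y : Ω) ≠ 0 := by
    rw [hy]
    exact fun h0 => div_ne_zero (pow_ne_zero e hπ0) hpF (Subtype.ext h0)
  have h1 : A.valuation (y : Ω) = 1 := by
    refine le_antisymm (hle y hvy.le) ?_
    have := hle y⁻¹ (by rw [map_inv₀, hvy, inv_one])
    rw [IntermediateField.coe_inv, map_inv₀] at this
    exact (inv_le_one₀ (A.valuation.pos_iff.mpr hy0)).mp this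
  have he0 : 0 < e := by
    rw [← hcard]; exact Nat.card_pos
  have h2 : A.valuation ((π : F) : Ω) ^ e = A.valuation (p : Ω) ^ ((1 : ℕ) : ℤ) := by
    have e1 : ((π : F) : Ω) ^ e = (y : Ω) * (p : Ω) := by
      have : (π : F) ^ e = y * (p : F) := (div_mul_cancel₀ _ hpF).symm
      have h3 := congrArg (algebraMap F Ω) this
      rw [map_pow, map_mul, map_natCast] at h3
      exact h3
    rw [← map_pow, e1, map_mul, h1, one_mul, zpow_natCast, pow_one]
  rw [h.ord_eq he0 h2]
  simp

/-- A uniformiser of the field fixed by an open subgroup `N` of inertia. -/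
theorem exists_uniformiser (h : IsOver A p) {N : Subgroup G_ℚ}
    (hle : N ≤ A.inertiaSubgroupIn ℚ)
    (hopen : ∃ F : IntermediateField ℚ Ω, FiniteDimensional ℚ F ∧
      ∀ σ ∈ A.inertiaSubgroupIn ℚ, σ ∈ F.fixingSubgroup → σ ∈ N) :
    (N.subgroupOf (A.inertiaSubgroupIn ℚ)).index ≠ 0 ∧
    ∃ π : Ω, π ≠ 0 ∧ (∀ σ ∈ N, σ π = π) ∧
      ord A p π = 1 / ((N.subgroupOf (A.inertiaSubgroupIn ℚ)).index : ℚ) := by
  classical
  obtain ⟨F₀, hF₀, hopen⟩ := hopen
  set F := IntermediateField.normalClosure ℚ F₀ Ω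
  have : Normal ℚ F := normalClosure.normal ℚ _ Ω
  have : IsGalois ℚ F := IsGalois.mk
  set I := A.inertiaSubgroupIn ℚ with hI
  set res : G_ℚ →* (F ≃ₐ[ℚ] F) := AlgEquiv.restrictNormalHom F
  set f : ↥I →* (F ≃ₐ[ℚ] F) := res.comp I.subtype
  set N' := N.subgroupOf I
  have hker : f.ker ≤ N' := by
    intro σ hσ
    rw [MonoidHom.mem_ker] at hσ
    refine hopen σ σ.2 ((IntermediateField.mem_fixingSubgroup_iff _ _).mpr fun x hx => ?_)
    have h1 := AlgEquiv.restrictNormal_commutes (σ : G_ℚ) F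
      ⟨x, F₀.le_normalClosure hx⟩
    have h2 : res σ = 1 := hσ
    rw [show (σ : G_ℚ).restrictNormal F = 1 from h2] at h1
    exact h1.symm
  have hrange : f.range = ((placeIdeal A).under (𝓞 F)).inertia (F ≃ₐ[ℚ] F) := by
    rw [MonoidHom.range_comp, Subgroup.range_subtype]
    exact map_inertia_eq h F
  set H : Subgroup ↥f.range := N'.map f.rangeRestrict
  have hidx : H.index = N'.index :=
    Subgroup.index_map_eq _ f.rangeRestrict_surjective (by rwa [MonoidHom.ker_rangeRestrict])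
  have hmul : Nat.card H * N'.index = Nat.card ↥f.range := by
    rw [← hidx]; exact H.card_mul_index
  have hidx0 : N'.index ≠ 0 := by
    intro e
    rw [e, mul_zero] at hmul
    exact Nat.card_pos.ne hmul
  refine ⟨hidx0, ?_⟩
  obtain ⟨π, hπ0, hπ⟩ := exists_uniformiser_level h F
  rw [← hrange] at hπ
  refine ⟨∏ g : H, (((g : ↥f.range) : F ≃ₐ[ℚ] F) π : Ω), ?_, ?_, ?_⟩
  · exact Finset.prod_ne_zero_iff.mpr fun g _ => by simpa using hπ0
  · intro σ hσ
    have hσH : f.rangeRestrict ⟨σ, hle hσ⟩ ∈ H :=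
      Subgroup.mem_map_of_mem _ (show (⟨σ, hle hσ⟩ : I) ∈ N' from hσ)
    rw [map_prod]
    refine Fintype.prod_equiv (Equiv.mulLeft (⟨_, hσH⟩ : H)) _ _ fun g => ?_
    exact (AlgEquiv.restrictNormal_commutes σ F
      (((g : ↥f.range) : F ≃ₐ[ℚ] F) π)).symm
  · have hval : ∀ g : H, ord A p (((g : ↥f.range) : F ≃ₐ[ℚ] F) π : Ω) = ord A p (π : Ω) := by
      intro g
      obtain ⟨σ, hσ⟩ := (g : ↥f.range).2
      rw [← hσ, show ((f σ π : F) : Ω) = (σ : G_ℚ) (π : Ω) from
        AlgEquiv.restrictNormal_commutes (σ : G_ℚ) F π]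
      exact h.ord_apply (MultRed.inertia_mem_decomposition σ.2) _
    rw [h.ord_prod _ _ fun g _ => by simpa using hπ0]
    simp only [hval, Finset.sum_const, Finset.card_univ, nsmul_eq_mul]
    rw [hπ, ← Nat.card_eq_fintype_card, ← hmul]
    push_cast
    have h1 : (Nat.card H : ℚ) ≠ 0 := by exact_mod_cast Nat.card_pos.ne'
    field_simp

end Fermat.Agent.FlatJ0
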